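/-
Project BAD, block LevelQ, sub-block LQ-MOD: THE CONCRETE LEVEL `M q`.  Definitions (complete).

`K` an ABSTRACT field embedded in `ℚ̄`, `A₀` a discrete valuation ring of `K` (any ramification),
`q ∤ M`.  On top of helper156's `S36/Mod/{GaussEmb, Fields, EmbK}`.
-/
import Fermat.Agent.S36.Mod.EmbK
import Fermat.Agent.BAD.LevelQ.Hub

set_option autoImplicit false

noncomputable section

namespace Fermat.Agent.BAD.LevelQ.Mod

open ModularCurve Fermat.Agent.S24 Fermat.Agent.S18 Fermat.Agent.S18.Vert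
  Fermat.Agent.S18.Descent Fermat.Agent.S36.Mod

variable (K : Type*) [Field K] [Algebra ℚ K]

section Maps

variable (M q : ℕ) [NeZero M] [NeZero q]

/-- `f(z) ↦ f(z)` -/
def al : FK K M →ₐ[K] FK K (M * q) := heckeAlphaBar K M q

/-- `f(z) ↦ f(q z)` -/
def be : FK K M →ₐ[K] FK K (M * q) := heckeBetaBar K M q

variable {M q} in
/-- Atkin-Lehner `w_q`, as an endomorphism -/
def wHom [Algebra K Kbar] (hc : M.Coprime q) : FK K (M * q) →ₐ[K] FK K (M * q) :=
  wAL K (M * q) M q rfl hc

variable {M q} in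
/-- Atkin-Lehner `w_q` -/
def ww [Algebra K Kbar] (hc : M.Coprime q) : FK K (M * q) ≃ₐ[K] FK K (M * q) :=
  AlgEquiv.ofAlgHom (wHom K hc) (wHom K hc)
    (AlgHom.ext fun f => wAL_wAL K (M * q) M q rfl hc f)
    (AlgHom.ext fun f => wAL_wAL K (M * q) M q rfl hc f)

end Maps

/-- a ring endomorphism of `K` acting on the coefficients -/
def gam (γ₀ : K →+* K) (M : ℕ) : FK K M →+* FK K M :=
  baseChangeMap (modularFunctionFieldFull M) γ₀

variable {K}
variable (A₀ : ValuationSubring K) [IsDiscreteValuationRing A₀]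

/-- the Gauss valuation ring of level `N` -/
def Og (N : ℕ) : ValuationSubring (FK K N) := (stdEmb A₀ N).val

variable {M q : ℕ} [NeZero M] [NeZero q]

/-- the two vertical valuation rings of level `M q`: `v_∞` and `v_0 = v_∞ ∘ w` -/
def VV [Algebra K Kbar] (hc : M.Coprime q) : Fin 2 → ValuationSubring (FK K (M * q)) :=
  ![Og A₀ (M * q), (Og A₀ (M * q)).comap (wHom K hc).toRingHom]

end Fermat.Agent.BAD.LevelQ.Mod
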