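/-
Project BAD, block LevelQ, sub-block LQ-MOD, section AL: Atkin-Lehner exchanges `al` and `be`.
-/
import Fermat.Agent.BAD.LevelQ.Mod.Defs

set_option autoImplicit false

noncomputable section

namespace Fermat.Agent.BAD.LevelQ.Mod

open ModularCurve Fermat.Agent.S24 Fermat.Agent.S18 Fermat.Agent.S18.Vert
  Fermat.Agent.S18.Descent Fermat.Agent.S36.Mod IntermediateField Polynomial

variable {K : Type*} [Field K] [Algebra ℚ K] [Algebra K Kbar]
  {A₀ : ValuationSubring K} [IsDiscreteValuationRing A₀] {ϖ₀ : K}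
  {M q : ℕ} [NeZero M] [NeZero q]

section AL

theorem ww_apply (hc : M.Coprime q) (y : FK K (M * q)) :
    ww K hc y = wAL K (M * q) M q rfl hc y := rfl

theorem ww_al (hc : M.Coprime q) (f : FK K M) : ww K hc (al K M q f) = be K M q f := by
  have key : (wAL K (M * q) M q rfl hc).comp (al K M q) = be K M q := by
    apply algHom_ext_JK
    intro d _ hd
    have h1 : d * 1 ∣ M * q := by rw [mul_one]; exact hd.mul_right _
    have h2 : d * q ∣ M * q := Nat.mul_dvd_mul_right hd _
    have h3 : q * d ∣ M * q := by rw [mul_comm]; exact h2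
    rw [AlgHom.comp_apply, al, be, al_JK, be_JK M q d hd h3,
      JK_congr K (M * q) (mul_one d).symm (hd.mul_right _) h1,
      wAL_JK K (M * q) M q rfl hc d 1 q hd (one_mul _) h1 h2]
    exact JK_congr K _ (mul_comm _ _) _ _
  exact congrArg (fun φ : FK K M →ₐ[K] FK K (M * q) => φ f) key

theorem ww_ww (hc : M.Coprime q) (y : FK K (M * q)) : ww K hc (ww K hc y) = y :=
  wAL_wAL K (M * q) M q rfl hc y

theorem ww_be (hc : M.Coprime q) (f : FK K M) : ww K hc (be K M q f) = al K M q f := by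
  rw [← ww_al hc, ww_ww]

theorem mem_VV_one (hc : M.Coprime q) (y : FK K (M * q)) :
    y ∈ VV A₀ hc 1 ↔ ww K hc y ∈ VV A₀ hc 0 := by
  have h1 : VV A₀ hc 1 = (Og A₀ (M * q)).comap (wHom K hc).toRingHom := by
    simp only [VV, Matrix.cons_val_one, Matrix.cons_val_fin_one]
  have h0 : VV A₀ hc 0 = Og A₀ (M * q) := by
    simp only [VV, Matrix.cons_val_zero]
  rw [h1, h0, ValuationSubring.mem_comap]
  have h2 : (wHom K hc).toRingHom y = ww K hc y := by
    simp only [ww, AlgEquiv.ofAlgHom_apply, AlgHom.toRingHom_eq_coe, RingHom.coe_coe]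
  rw [h2]

end AL

end Fermat.Agent.BAD.LevelQ.Mod

end
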