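/-
Project BAD, block LevelQ, sub-block LQ-MOD, section Gauss: bridge `IntEmb.val` ↔ `S18.IsGauss`.
-/
import Fermat.Agent.BAD.LevelQ.Mod.Defs
import Fermat.Agent.S18.ModDefs
import Fermat.Agent.S18.Chart.DedUnif
import Fermat.Agent.S36.Mod.GaussEmb.Basic
import Fermat.Agent.S36.Mod.Fields

set_option autoImplicit false

noncomputable section

namespace Fermat.Agent.BAD.LevelQ.Mod

open ModularCurve Fermat.Agent.S24 Fermat.Agent.S18 Fermat.Agent.S18.Vert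
  Fermat.Agent.S18.Descent Fermat.Agent.S36.Mod IntermediateField Polynomial

variable {K : Type*} [Field K] [Algebra ℚ K] [Algebra K Kbar]
  {A₀ : ValuationSubring K} [IsDiscreteValuationRing A₀] {ϖ₀ : K}
  {M q : ℕ} [NeZero M] [NeZero q]

/-! ### Gauss : bridge `IntEmb.val` ↔ `S18.IsGauss` (file Mod/Gauss.lean) -/
section Gauss

omit [Algebra K Kbar] in
theorem isGauss_Og (h₀ : IsUnif A₀ ϖ₀) (N : ℕ) : IsGauss A₀ ϖ₀ (FK K N) (Og A₀ N) := by
  refine ⟨?_, ?_, ?_⟩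
  · refine (stdEmb A₀ N).isUnif_val (π := ⟨ϖ₀, h₀.mem⟩) h₀.irreducible (U := 1)
      (by rw [map_one]; exact one_ne_zero) ?_
    rw [mul_one, inc_C]
    rfl
  · intro P hP
    exact (stdEmb A₀ N).mem_val_of_eq_inc (f := (⟨_, hP⟩ : FK K N)) (P := P) rfl
  · intro P hP hred
    exact (stdEmb A₀ N).inv_mem_val_of_pres (z := (⟨_, hP⟩ : FK K N)) (P := P) (Q := 1) hred
      (by rw [map_one, mul_one]; rfl)

omit [Algebra K Kbar] in
theorem valuation_lt_one_iff_res (N : ℕ) (f : FK K N) (hf : f ∈ Og A₀ N) :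
    (Og A₀ N).valuation f < 1 ↔ (stdEmb A₀ N).res ⟨f, hf⟩ = 0 := by
  rw [(stdEmb A₀ N).res_eq_zero_iff ⟨f, hf⟩, ValuationSubring.mem_nonunits_iff]
  rfl

end Gauss

end Fermat.Agent.BAD.LevelQ.Mod
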