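/-
Project BAD, block LevelQ, sub-block LQ-MOD: the structure `IsFrobInv` of the skeleton
(section Kron), in a file of its own so that the providers (`Mod/Frob.lean`) and the consumers
(`Mod/Main.lean`, ...) share it.
-/
import Mathlib.RingTheory.Valuation.ValuationSubring

set_option autoImplicit false

namespace Fermat.Agent.BAD.LevelQ.Mod

variable {K : Type*} [Field K]

/-- `γ₀` is an endomorphism of `K` preserving `A₀` and inducing the inverse of the Frobenius on the
residue field. -/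
structure IsFrobInv (A₀ : ValuationSubring K) (q : ℕ) (γ₀ : K →+* K) : Prop where
  comap : A₀.comap γ₀ = A₀
  frob : ∀ a ∈ A₀, A₀.valuation (γ₀ a ^ q - a) < 1

theorem IsFrobInv.mem_iff {A₀ : ValuationSubring K} {q : ℕ} {γ₀ : K →+* K}
    (h : IsFrobInv A₀ q γ₀) (a : K) : γ₀ a ∈ A₀ ↔ a ∈ A₀ := by
  conv_rhs => rw [← h.comap]
  exact ValuationSubring.mem_comap.symm

theorem IsFrobInv.mem {A₀ : ValuationSubring K} {q : ℕ} {γ₀ : K →+* K}
    (h : IsFrobInv A₀ q γ₀) : ∀ a ∈ A₀, γ₀ a ∈ A₀ := fun a ha => (h.mem_iff a).2 ha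

end Fermat.Agent.BAD.LevelQ.Mod
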