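/-
Project BAD, block LQ-MOD (2) (helper97): KRONECKER'S CONGRUENCE, the inverse Frobenius `γ` and the
separating elements, for the Gauss valuation rings of `FK K M` and `FK K (M * q)`.

Everything is stated for ARBITRARY valuation rings satisfying `S18.IsGauss`, over an abstract field
`K` with a discrete valuation ring `A₀` (`IsUnif A₀ ϖ₀`) of residue characteristic `q`, and a ring
endomorphism `γ₀` of `K` inducing the inverse of the Frobenius on the residue field (`FrobInv`).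

Main results (fields of `BAD.LevelQ.LQ`):
* `gam γ₀ M`            : the coefficientwise action of `γ₀` on `FK K M`;
* `gam_algebraMap`, `gam_xK`, `gam_mem`            (fields `γ_const`, `γ_x`, `γ_mem`);
* `kron`                : `f(q z) ≡ (γ f)(z) ^ q`   (field `kron`);
* `val_aK_lt`, `bK_mem`, `val_bK_eq`, `isSep_of`    (field `sep`).
-/
import Fermat.Agent.S18.Gauss.Field
import Fermat.Agent.S18.Descent.Union
import Fermat.Agent.GAL.E.Frob
import Fermat.Agent.BAD.LevelQ.Hub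
import Fermat.Agent.BAD.LevelQ.Abs.Two
import Fermat.Agent.BAD.LevelQ.Abs.Residue
import Fermat.Agent.BAD.LevelQ.Mod.FrobDef
import Fermat.Agent.BAD.LevelQ.Mod.Defs
import Fermat.Agent.BAD.LevelQ.Mod.Gauss
import Fermat.Agent.S18.Descent.DVRUnif

set_option autoImplicit false

noncomputable section

namespace Fermat.Agent.BAD.LevelQ.Kron

open ModularCurve Fermat.Agent.S18 Fermat.Agent.S18.Gauss Fermat.Agent.BAD.LevelQ.Two

local notation "ι" => Fermat.Agent.S28.Export.iota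
local notation "ρ" => Fermat.Agent.S28.Export.rho

variable {K : Type*} [Field K] {A₀ : ValuationSubring K} {ϖ₀ : K}

/-- `γ₀` induces the inverse of the `q`-Frobenius on the residue field of `A₀`. -/
structure FrobInv (A₀ : ValuationSubring K) (q : ℕ) (γ₀ : K →+* K) : Prop where
  mem : ∀ a ∈ A₀, γ₀ a ∈ A₀
  pow : ∀ a ∈ A₀, A₀.valuation (γ₀ a ^ q - a) < 1

section Series

variable {q : ℕ} {γ₀ : K →+* K}

/-- the restriction of `γ₀` to `A₀` -/
def gA (hγ : FrobInv A₀ q γ₀) : A₀ →+* A₀ := γ₀.restrict A₀ A₀ hγ.mem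

@[simp] theorem coe_gA (hγ : FrobInv A₀ q γ₀) (a : A₀) : ((gA hγ a : A₀) : K) = γ₀ a := rfl

/-- the coefficientwise action on integral series -/
def gS (hγ : FrobInv A₀ q γ₀) : LaurentSeries A₀ →+* LaurentSeries A₀ := coeffMap (gA hγ)

theorem iota_gS (hγ : FrobInv A₀ q γ₀) (P : LaurentSeries A₀) :
    ι A₀ (gS hγ P) = coeffMap γ₀ (ι A₀ P) := by
  ext n
  rfl

theorem residue_gA_pow (hγ : FrobInv A₀ q γ₀) (a : A₀) :
    IsLocalRing.residue A₀ (gA hγ a) ^ q = IsLocalRing.residue A₀ a := by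
  rw [← map_pow, ← sub_eq_zero, ← map_sub, IsLocalRing.residue_eq_zero_iff,
    ValuationSubring.valuation_lt_one_iff]
  exact hγ.pow a a.2

theorem charP_residue (hq : q.Prime) (hchar : A₀.valuation (q : K) < 1) :
    CharP (IsLocalRing.ResidueField A₀) q := by
  rw [CharP.charP_iff_prime_eq_zero hq]
  have h2 : (q : A₀) ∈ IsLocalRing.maximalIdeal A₀ := by
    rw [ValuationSubring.valuation_lt_one_iff]
    simpa using hchar
  have h3 := (IsLocalRing.residue_eq_zero_iff (q : A₀)).2 h2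
  simpa using h3

/-- **Kronecker's congruence for integral series.** -/
theorem rho_gS_pow [NeZero q] (hq : q.Prime) (hchar : A₀.valuation (q : K) < 1)
    (hγ : FrobInv A₀ q γ₀) (P : LaurentSeries A₀) :
    ρ A₀ (gS hγ P ^ q) = ρ A₀ (qExpand A₀ q P) := by
  have : Fact q.Prime := ⟨hq⟩
  have := charP_residue hq hchar
  rw [map_pow, Fermat.Agent.GAL.E.pow_char_eq_qExpand q, coeffMap_qExpand]
  congr 1
  ext n
  show (IsLocalRing.residue A₀ (gA hγ (P.coeff n))) ^ q = IsLocalRing.residue A₀ (P.coeff n)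
  exact residue_gA_pow hγ _

theorem rho_gS_ne_zero (hq0 : q ≠ 0) (hγ : FrobInv A₀ q γ₀) {P : LaurentSeries A₀}
    (hP : ρ A₀ P ≠ 0) : ρ A₀ (gS hγ P) ≠ 0 := by
  intro h
  apply hP
  ext n
  have h1 : IsLocalRing.residue A₀ (gA hγ (P.coeff n)) = 0 := by
    have := congrArg (fun s => HahnSeries.coeff s n) h
    exact this
  show IsLocalRing.residue A₀ (P.coeff n) = 0
  rw [← residue_gA_pow hγ, h1, zero_pow hq0]

theorem rho_qExpand_ne_zero [NeZero q] {P : LaurentSeries A₀} (hP : ρ A₀ P ≠ 0) :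
    ρ A₀ (qExpand A₀ q P) ≠ 0 := by
  rw [coeffMap_qExpand]
  intro h
  exact hP (qExpand_injective (R := IsLocalRing.ResidueField A₀) q (by rw [h, map_zero]))

end Series

/-! ### Generalities on Gauss valuation rings -/
section GaussLemmas

variable {L : IntermediateField K (LaurentSeries K)} {Ow : ValuationSubring L}

/-- a primitive integral series is a unit. -/
theorem val_eq_one (hG : IsGauss A₀ ϖ₀ L Ow) (P : LaurentSeries A₀) (hP : ι A₀ P ∈ L)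
    (hP0 : ρ A₀ P ≠ 0) : Ow.valuation (⟨_, hP⟩ : L) = 1 := by
  have hne : (⟨_, hP⟩ : L) ≠ 0 := fun h => iota_ne_zero hP0 (congrArg Subtype.val h)
  have h1 := (Ow.valuation_le_one_iff _).mpr (hG.mem P hP)
  have h2 := (Ow.valuation_le_one_iff _).mpr (hG.inv_mem P hP hP0)
  rw [map_inv₀] at h2
  have hv0 : Ow.valuation (⟨_, hP⟩ : L) ≠ 0 := (Ow.valuation.ne_zero_iff).mpr hne
  exact le_antisymm h1 ((inv_le_one₀ (zero_lt_iff.mpr hv0)).mp h2)

/-- an integral series with zero reduction is a nonunit. -/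
theorem val_lt_one (h₀ : IsUnif A₀ ϖ₀) (hG : IsGauss A₀ ϖ₀ L Ow) (N : LaurentSeries A₀)
    (hN : ι A₀ N ∈ L) (hN0 : ρ A₀ N = 0) : Ow.valuation (⟨_, hN⟩ : L) < 1 := by
  obtain ⟨R, hR⟩ := exists_eq_cst_mul h₀ N hN0
  have hc : cst ϖ₀ ≠ 0 := cst_ne_zero h₀.ne_zero
  have hRL : ι A₀ R ∈ L := by
    have : ι A₀ R = (cst ϖ₀)⁻¹ * ι A₀ N := by rw [hR, inv_mul_cancel_left₀ hc]
    rw [this]
    exact mul_mem (L.inv_mem (cst_mem _)) hN
  have e : (⟨_, hN⟩ : L) = (⟨_, hRL⟩ : L) * algebraMap K L ϖ₀ := by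
    apply Subtype.ext
    rw [mul_comm]
    exact hR
  rw [e]
  exact lt_one_mul (hG.mem R hRL) (val_unif_lt_one hG.unif)

/-- the elements of the Gauss ring are the fractions `P / Q`, `Q` primitive. -/
theorem exists_frac (hL : HasNf A₀ ϖ₀ L) (hG : IsGauss A₀ ϖ₀ L Ow) (f : L) (hf : f ∈ Ow) :
    ∃ (P Q : LaurentSeries A₀) (hP : ι A₀ P ∈ L) (hQ : ι A₀ Q ∈ L), ρ A₀ Q ≠ 0 ∧
      f * (⟨_, hQ⟩ : L) = ⟨_, hP⟩ := by
  by_cases hf0 : f = 0
  · refine ⟨0, 1, by rw [map_zero]; exact L.zero_mem, by rw [map_one]; exact L.one_mem, ?_, ?_⟩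
    · rw [map_one]; exact one_ne_zero
    · apply Subtype.ext
      rw [hf0]
      simp
  obtain ⟨n, P, Q, hP, hQ, hP0, hQ0, h⟩ := hL f f.2 (fun h => hf0 (Subtype.ext h))
  have hP' : (⟨_, hP⟩ : L) ≠ 0 := fun h => iota_ne_zero hP0 (congrArg Subtype.val h)
  have h1 : f * ⟨_, hQ⟩ = algebraMap K L ϖ₀ ^ n * ⟨_, hP⟩ := by
    apply Subtype.ext
    rw [← map_zpow₀]
    exact h
  have h2 : algebraMap K L ϖ₀ ^ n = f * ⟨_, hQ⟩ * (⟨_, hP⟩ : L)⁻¹ := by
    rw [h1, mul_inv_cancel_right₀ hP']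
  have h3 : algebraMap K L ϖ₀ ^ n ∈ Ow := by
    rw [h2]
    exact mul_mem (mul_mem hf (hG.mem Q hQ)) (hG.inv_mem P hP hP0)
  have hn : 0 ≤ n := by
    by_contra hlt
    apply hG.unif.inv_notMem
    have : (algebraMap K L ϖ₀)⁻¹ = algebraMap K L ϖ₀ ^ n * algebraMap K L ϖ₀ ^ (-n - 1) := by
      rw [← zpow_add₀ hG.unif.ne_zero, ← zpow_neg_one]
      congr 1; ring
    rw [this]
    exact mul_mem h3 (hG.unif.zpow_mem (by omega))
  obtain ⟨m, rfl⟩ := Int.eq_ofNat_of_zero_le hn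
  have hϖ : ϖ₀ ∈ A₀ := by
    by_contra hcon
    have h4 : ϖ₀⁻¹ ∈ A₀ := (A₀.mem_or_inv_mem ϖ₀).resolve_left hcon
    apply hG.unif.inv_notMem
    rw [← map_inv₀]
    exact hG.const_mem _ h4
  have e : ι A₀ (HahnSeries.C (⟨ϖ₀ ^ m, A₀.pow_mem hϖ m⟩ : A₀) * P) = cst (ϖ₀ ^ m) * ι A₀ P := by
    rw [map_mul, iota_C]
  refine ⟨HahnSeries.C (⟨ϖ₀ ^ m, A₀.pow_mem hϖ m⟩ : A₀) * P, Q, ?_, hQ, hQ0, ?_⟩
  · rw [e]
    exact mul_mem (cst_mem _) hP
  · apply Subtype.ext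
    refine Eq.trans ?_ e.symm
    rw [zpow_natCast] at h
    exact h

/-- transport of `valuation < 1` along an automorphism. -/
theorem val_lt_one_transport {F : Type*} [Field F] {V V' : ValuationSubring F} (w : F ≃+* F)
    (h : ∀ y, y ∈ V' ↔ w y ∈ V) (y : F) : V'.valuation y < 1 ↔ V.valuation (w y) < 1 := by
  rw [Residue.val_lt_one_iff, Residue.val_lt_one_iff, h, map_inv₀, map_eq_zero_iff w w.injective]

end GaussLemmas

/-! ### The modular function fields -/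
section Mod

variable [Algebra ℚ K] {q : ℕ} {γ₀ : K →+* K} {M : ℕ}

/-- The coefficientwise action of `γ₀` on the function field of `X₀(M)` over `K`. -/
def gam (γ₀ : K →+* K) (M : ℕ) : FK K M →+* FK K M :=
  Descent.baseChangeMap (modularFunctionFieldFull M) γ₀

@[simp] theorem coe_gam (f : FK K M) :
    ((gam γ₀ M f : FK K M) : LaurentSeries K) = coeffMap γ₀ (f : LaurentSeries K) := rfl

theorem gam_algebraMap (c : K) :
    gam γ₀ M (algebraMap K (FK K M) c) = algebraMap K (FK K M) (γ₀ c) :=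
  Descent.baseChangeMap_algebraMap γ₀ c

/-- field `γ_const` of `LQ` -/
theorem gam_const (hγ : FrobInv A₀ q γ₀) :
    ∀ a ∈ A₀, ∃ a' ∈ A₀, gam γ₀ M (algebraMap K (FK K M) a) = algebraMap K (FK K M) a' :=
  fun a ha => ⟨γ₀ a, hγ.mem a ha, gam_algebraMap a⟩

theorem gam_coeffEmb {x : LaurentSeries ℚ} (hx : x ∈ modularFunctionFieldFull M) :
    gam γ₀ M ⟨coeffEmb K x, coeffEmb_mem_laurentBaseChange K hx⟩ =
      ⟨coeffEmb K x, coeffEmb_mem_laurentBaseChange K hx⟩ :=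
  Subtype.ext (Descent.coeffMap_coeffEmb' γ₀ x)

/-- field `γ_x` of `LQ` -/
theorem gam_xK {ℓ : ℕ} (D : BaseData M ℓ) : gam γ₀ M (D.xK K) = D.xK K :=
  gam_coeffEmb D.mem

theorem gam_jK : gam γ₀ M (jK K M) = jK K M :=
  Subtype.ext (Descent.coeffMap_coeffEmb' γ₀ jq)

theorem gS_mem (hγ : FrobInv A₀ q γ₀) {P : LaurentSeries A₀} (hP : ι A₀ P ∈ FK K M) :
    ι A₀ (gS hγ P) ∈ FK K M := by
  rw [iota_gS]
  exact (gam γ₀ M ⟨_, hP⟩).2

theorem gam_mk (hγ : FrobInv A₀ q γ₀) {P : LaurentSeries A₀} (hP : ι A₀ P ∈ FK K M) :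
    gam γ₀ M ⟨_, hP⟩ = ⟨_, gS_mem hγ hP⟩ :=
  Subtype.ext (iota_gS hγ P).symm

/-- field `γ_mem` of `LQ` -/
theorem gam_mem (h₀ : IsUnif A₀ ϖ₀) (hq0 : q ≠ 0) (hγ : FrobInv A₀ q γ₀)
    {Ow' : ValuationSubring (FK K M)} (hG' : IsGauss A₀ ϖ₀ (FK K M) Ow') :
    ∀ f ∈ Ow', gam γ₀ M f ∈ Ow' := by
  intro f hf
  obtain ⟨P, Q, hP, hQ, hQ0, h⟩ := exists_frac (hasNf_FK h₀ M) hG' f hf
  have hQ1 := rho_gS_ne_zero hq0 hγ hQ0
  have hne : (⟨_, gS_mem hγ hQ⟩ : FK K M) ≠ 0 :=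
    fun h => iota_ne_zero hQ1 (congrArg Subtype.val h)
  have h1 : gam γ₀ M f * ⟨_, gS_mem hγ hQ⟩ = ⟨_, gS_mem hγ hP⟩ := by
    rw [← gam_mk hγ hQ, ← gam_mk hγ hP, ← map_mul, h]
  have h2 : gam γ₀ M f = ⟨_, gS_mem hγ hP⟩ * (⟨_, gS_mem hγ hQ⟩ : FK K M)⁻¹ := by
    rw [← h1, mul_inv_cancel_right₀ hne]
  rw [h2]
  exact mul_mem (hG'.mem _ _) (hG'.inv_mem _ _ hQ1)

variable [NeZero M] [NeZero q]

omit [NeZero M] in
theorem qE_mem {P : LaurentSeries A₀} (hP : ι A₀ P ∈ FK K M) :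
    ι A₀ (qExpand A₀ q P) ∈ FK K (M * q) := by
  rw [coeffMap_qExpand]
  exact (heckeBetaBar K M q ⟨_, hP⟩).2

omit [NeZero M] in
theorem be_mk {P : LaurentSeries A₀} (hP : ι A₀ P ∈ FK K M) :
    heckeBetaBar K M q ⟨_, hP⟩ = ⟨_, qE_mem hP⟩ :=
  Subtype.ext (coeffMap_qExpand _ q P).symm

theorem al_mem {P : LaurentSeries A₀} (hP : ι A₀ P ∈ FK K M) : ι A₀ P ∈ FK K (M * q) :=
  (heckeAlphaBar K M q ⟨_, hP⟩).2

theorem al_mk {P : LaurentSeries A₀} (hP : ι A₀ P ∈ FK K M) :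
    heckeAlphaBar K M q ⟨_, hP⟩ = ⟨_, al_mem hP⟩ := rfl

/-- **Kronecker's congruence** `f(q z) ≡ (γ f)(z) ^ q` (field `kron` of `LQ`). -/
theorem kron (h₀ : IsUnif A₀ ϖ₀) (hq : q.Prime) (hchar : A₀.valuation (q : K) < 1)
    (hγ : FrobInv A₀ q γ₀) {Ow' : ValuationSubring (FK K M)} (hG' : IsGauss A₀ ϖ₀ (FK K M) Ow')
    {V0 : ValuationSubring (FK K (M * q))} (hG : IsGauss A₀ ϖ₀ (FK K (M * q)) V0) :
    ∀ f ∈ Ow', V0.valuation (heckeBetaBar K M q f - heckeAlphaBar K M q (gam γ₀ M f) ^ q) < 1 := by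
  intro f hf
  obtain ⟨P, Q, hP, hQ, hQ0, h⟩ := exists_frac (hasNf_FK h₀ M) hG' f hf
  have hQ1 := rho_gS_ne_zero hq.ne_zero hγ hQ0
  have hQ2 : ρ A₀ (qExpand A₀ q Q) ≠ 0 := rho_qExpand_ne_zero hQ0
  -- the four integral series at level `M * q`
  set bP : FK K (M * q) := ⟨_, qE_mem (q := q) hP⟩ with hbP
  set bQ : FK K (M * q) := ⟨_, qE_mem (q := q) hQ⟩ with hbQ
  set aP : FK K (M * q) := ⟨_, al_mem (q := q) (gS_mem hγ hP)⟩ with haP
  set aQ : FK K (M * q) := ⟨_, al_mem (q := q) (gS_mem hγ hQ)⟩ with haQ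
  have hbQ0 : bQ ≠ 0 := fun h => iota_ne_zero hQ2 (congrArg Subtype.val h)
  have haQ0 : aQ ≠ 0 := fun h => iota_ne_zero hQ1 (congrArg Subtype.val h)
  have e1 : heckeBetaBar K M q f * bQ = bP := by
    rw [hbQ, hbP, ← be_mk hQ, ← be_mk hP, ← map_mul, h]
  have e2 : heckeAlphaBar K M q (gam γ₀ M f) * aQ = aP := by
    rw [haQ, haP, ← al_mk (gS_mem hγ hQ), ← al_mk (gS_mem hγ hP), ← gam_mk hγ hQ, ← gam_mk hγ hP,
      ← map_mul, ← map_mul, h]
  have e3 : heckeBetaBar K M q f - heckeAlphaBar K M q (gam γ₀ M f) ^ q =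
      (bP * aQ ^ q - aP ^ q * bQ) * (bQ * aQ ^ q)⁻¹ := by
    rw [← e1, ← e2]
    field_simp
    ring
  -- numerator and denominator as integral series
  have hNmem : ι A₀ (qExpand A₀ q P * gS hγ Q ^ q - gS hγ P ^ q * qExpand A₀ q Q) ∈
      FK K (M * q) := by
    rw [map_sub, map_mul, map_mul, map_pow, map_pow]
    exact (bP * aQ ^ q - aP ^ q * bQ).2
  have hN : bP * aQ ^ q - aP ^ q * bQ = ⟨_, hNmem⟩ := by
    apply Subtype.ext
    show _ = ι A₀ (qExpand A₀ q P * gS hγ Q ^ q - gS hγ P ^ q * qExpand A₀ q Q)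
    rw [map_sub, map_mul, map_mul, map_pow, map_pow]
    rfl
  have hDmem : ι A₀ (qExpand A₀ q Q * gS hγ Q ^ q) ∈ FK K (M * q) := by
    rw [map_mul, map_pow]
    exact (bQ * aQ ^ q).2
  have hD : bQ * aQ ^ q = ⟨_, hDmem⟩ := by
    apply Subtype.ext
    show _ = ι A₀ (qExpand A₀ q Q * gS hγ Q ^ q)
    rw [map_mul, map_pow]
    rfl
  have hN0 : ρ A₀ (qExpand A₀ q P * gS hγ Q ^ q - gS hγ P ^ q * qExpand A₀ q Q) = 0 := by
    rw [map_sub, map_mul, map_mul, rho_gS_pow hq hchar hγ, rho_gS_pow hq hchar hγ, mul_comm,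
      sub_self]
  have hD0 : ρ A₀ (qExpand A₀ q Q * gS hγ Q ^ q) ≠ 0 := by
    rw [map_mul, map_pow]
    exact mul_ne_zero hQ2 (pow_ne_zero _ hQ1)
  rw [e3, hN, hD, mul_comm (⟨_, hNmem⟩ : FK K (M * q))]
  exact lt_one_mul (hG.inv_mem _ hDmem hD0) (val_lt_one h₀ hG _ hNmem hN0)

/-! ### The separating elements -/

omit [NeZero M] [NeZero q] in
theorem coe_jK : ((jK K M : FK K M) : LaurentSeries K) = ι A₀ (jqModC A₀) := by
  show coeffEmb K jq = _
  rw [coeffMap_jqModC, ← jqModC_rat, coeffEmb, coeffMap_jqModC]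

omit [NeZero M] [NeZero q] in
theorem iota_j_mem : ι A₀ (jqModC A₀) ∈ FK K M := by
  rw [← coe_jK (M := M)]
  exact (jK K M).2

omit [NeZero M] [NeZero q] in
theorem jK_eq : jK K M = ⟨_, iota_j_mem (A₀ := A₀)⟩ := Subtype.ext coe_jK

omit [NeZero M] [NeZero q] in
theorem jK_mem {Ow' : ValuationSubring (FK K M)} (hG' : IsGauss A₀ ϖ₀ (FK K M) Ow') :
    jK K M ∈ Ow' := by
  rw [jK_eq (A₀ := A₀)]
  exact hG'.mem _ _

/-- `a = j(q z) - j(z) ^ q`: it vanishes on the component `v_∞`, not on `v_0`. -/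
def aK (K : Type*) [Field K] [Algebra ℚ K] (M q : ℕ) [NeZero M] [NeZero q] : FK K (M * q) :=
  heckeBetaBar K M q (jK K M) - heckeAlphaBar K M q (jK K M) ^ q

/-- `b = j(z) - j(q z) ^ q`: it vanishes on the component `v_0`, not on `v_∞`. -/
def bK (K : Type*) [Field K] [Algebra ℚ K] (M q : ℕ) [NeZero M] [NeZero q] : FK K (M * q) :=
  heckeAlphaBar K M q (jK K M) - heckeBetaBar K M q (jK K M) ^ q

theorem val_aK_lt (h₀ : IsUnif A₀ ϖ₀) (hq : q.Prime) (hchar : A₀.valuation (q : K) < 1)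
    (hγ : FrobInv A₀ q γ₀) {V0 : ValuationSubring (FK K (M * q))}
    (hG : IsGauss A₀ ϖ₀ (FK K (M * q)) V0) : V0.valuation (aK K M q) < 1 := by
  obtain ⟨Ow', hG'⟩ := exists_isGauss h₀ M
  have := kron h₀ hq hchar hγ hG' hG (jK K M) (jK_mem hG')
  rwa [gam_jK] at this

omit [Algebra ℚ K] [NeZero M] in
theorem rho_b_ne_zero (hq : q.Prime) (hchar : A₀.valuation (q : K) < 1) :
    ρ A₀ (jqModC A₀ - qExpand A₀ q (jqModC A₀) ^ q) ≠ 0 := by
  have : Fact q.Prime := ⟨hq⟩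
  have := charP_residue hq hchar
  intro h
  have h1 := congrArg (fun s => HahnSeries.coeff s (-1)) h
  simp only [map_sub, map_pow, HahnSeries.coeff_sub, HahnSeries.coeff_zero] at h1
  rw [Fermat.Agent.GAL.E.pow_char_eq_qExpand q, coeffMap_jqModC, coeff_jqModC_neg_one,
    qExpand_coeff_of_not_dvd, sub_zero] at h1
  · exact one_ne_zero h1
  · intro hd
    have h2 : (q : ℤ) ∣ 1 := by simpa using hd
    have h3 : q ∣ 1 := by exact_mod_cast h2
    exact hq.one_lt.ne' (Nat.dvd_one.mp h3)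

theorem iota_b_mem :
    ι A₀ (jqModC A₀ - qExpand A₀ q (jqModC A₀) ^ q) ∈ FK K (M * q) := by
  rw [map_sub, map_pow]
  exact sub_mem (al_mem (iota_j_mem (M := M))) (pow_mem (qE_mem (iota_j_mem (M := M))) q)

theorem bK_eq : bK K M q = ⟨_, iota_b_mem (A₀ := A₀)⟩ := by
  apply Subtype.ext
  show _ = ι A₀ (jqModC A₀ - qExpand A₀ q (jqModC A₀) ^ q)
  rw [map_sub, map_pow, coeffMap_qExpand, ← coe_jK (M := M)]
  rfl

theorem bK_mem {V0 : ValuationSubring (FK K (M * q))} (hG : IsGauss A₀ ϖ₀ (FK K (M * q)) V0) :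
    bK K M q ∈ V0 := by
  rw [bK_eq (A₀ := A₀)]
  exact hG.mem _ _

theorem val_bK_eq (hq : q.Prime) (hchar : A₀.valuation (q : K) < 1)
    {V0 : ValuationSubring (FK K (M * q))} (hG : IsGauss A₀ ϖ₀ (FK K (M * q)) V0) :
    V0.valuation (bK K M q) = 1 := by
  rw [bK_eq (A₀ := A₀)]
  exact val_eq_one hG _ _ (rho_b_ne_zero hq hchar)

/-- field `sep` of `LQ`: `v_∞ ≠ v_0`. -/
theorem isSep_of (h₀ : IsUnif A₀ ϖ₀) (hq : q.Prime) (hchar : A₀.valuation (q : K) < 1)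
    (hγ : FrobInv A₀ q γ₀) (w : FK K (M * q) ≃ₐ[K] FK K (M * q))
    (w_al : ∀ f, w (heckeAlphaBar K M q f) = heckeBetaBar K M q f)
    (w_be : ∀ f, w (heckeBetaBar K M q f) = heckeAlphaBar K M q f)
    (V : Fin 2 → ValuationSubring (FK K (M * q))) (hG : IsGauss A₀ ϖ₀ (FK K (M * q)) (V 0))
    (V_one : ∀ y, y ∈ V 1 ↔ w y ∈ V 0) : IsSep V := by
  have hwa : w (aK K M q) = bK K M q := by
    rw [aK, bK, map_sub, map_pow, w_al, w_be]
  have hwb : w (bK K M q) = aK K M q := by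
    rw [aK, bK, map_sub, map_pow, w_al, w_be]
  have ha0 : (V 0).valuation (aK K M q) < 1 := val_aK_lt h₀ hq hchar hγ hG
  have hb0 : (V 0).valuation (bK K M q) = 1 := val_bK_eq hq hchar hG
  have htr := val_lt_one_transport (V := V 0) (V' := V 1) w.toRingEquiv V_one
  have hb1 : (V 1).valuation (bK K M q) < 1 := by
    rw [htr]
    show (V 0).valuation (w (bK K M q)) < 1
    rwa [hwb]
  have ha1m : aK K M q ∈ V 1 := by
    rw [V_one, hwa]
    exact bK_mem hG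
  have ha1 : (V 1).valuation (aK K M q) = 1 := by
    refine le_antisymm ((ValuationSubring.valuation_le_one_iff _ _).mpr ha1m) (not_lt.mp ?_)
    rw [htr]
    show ¬ (V 0).valuation (w (aK K M q)) < 1
    rw [hwa, hb0]
    exact lt_irrefl _
  intro c c' hcc
  fin_cases c <;> fin_cases c'
  · exact absurd rfl hcc
  · refine ⟨bK K M q, ?_, hb0, hb1⟩
    intro d
    fin_cases d
    · exact bK_mem hG
    · exact mem_of_lt_one hb1
  · refine ⟨aK K M q, ?_, ha1, ha0⟩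
    intro d
    fin_cases d
    · exact mem_of_lt_one ha0
    · exact ha1m
  · exact absurd rfl hcc

end Mod

end Fermat.Agent.BAD.LevelQ.Kron

/-! ### The exports of the skeleton `Mod/WIP/Skeleton.lean`, section Kron (names VERBATIM) -/
namespace Fermat.Agent.BAD.LevelQ.Mod

open ModularCurve Fermat.Agent.S24 Fermat.Agent.S18 Fermat.Agent.S18.Vert
  Fermat.Agent.S18.Descent Fermat.Agent.S36.Mod Fermat.Agent.S18.Gauss

local notation "ι" => Fermat.Agent.S28.Export.iota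
local notation "ρ" => Fermat.Agent.S28.Export.rho

variable {K : Type*} [Field K] [Algebra ℚ K]
  {A₀ : ValuationSubring K} [IsDiscreteValuationRing A₀] {ϖ₀ : K}
  {M q : ℕ} [NeZero M] [NeZero q]

-- the structure `IsFrobInv` lives in `Mod/FrobDef.lean` (shared with `Mod/Frob.lean`).

omit [Algebra ℚ K] [IsDiscreteValuationRing A₀] in
theorem mem_of_comap {γ₀ : K →+* K} (hγ : A₀.comap γ₀ = A₀) : ∀ a ∈ A₀, γ₀ a ∈ A₀ := by
  intro a ha
  rw [← hγ] at ha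
  exact ha

omit [Algebra ℚ K] [IsDiscreteValuationRing A₀] [NeZero q] in
theorem IsFrobInv.frobInv {γ₀ : K →+* K} (hγ : IsFrobInv A₀ q γ₀) : Kron.FrobInv A₀ q γ₀ :=
  ⟨mem_of_comap hγ.comap, hγ.frob⟩

omit [Algebra ℚ K] in
/-- a discrete valuation ring has a uniformiser in the sense of `S18.IsUnif`. -/
theorem exists_isUnif (A₀ : ValuationSubring K) [IsDiscreteValuationRing A₀] :
    ∃ ϖ : K, IsUnif A₀ ϖ := by
  obtain ⟨ϖ, hϖ⟩ := IsDiscreteValuationRing.exists_irreducible A₀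
  exact ⟨ϖ, isUnif_of_irreducible A₀ ϖ hϖ⟩

omit [NeZero M] in
theorem gam_const (γ₀ : K →+* K) (a : K) :
    gam K γ₀ M (algebraMap K (FK K M) a) = algebraMap K (FK K M) (γ₀ a) :=
  Kron.gam_algebraMap a

omit [NeZero M] in
theorem gam_xK (γ₀ : K →+* K) {ℓ : ℕ} (D : BaseData M ℓ) : gam K γ₀ M (D.xK K) = D.xK K :=
  Kron.gam_xK D

omit [NeZero M] in
theorem gam_jK (γ₀ : K →+* K) : gam K γ₀ M (jK K M) = jK K M := Kron.gam_jK

omit [NeZero M] in
theorem gam_mem {γ₀ : K →+* K} (hγ : A₀.comap γ₀ = A₀) {f : FK K M} (hf : f ∈ Og A₀ M) :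
    gam K γ₀ M f ∈ Og A₀ M := by
  obtain ⟨ϖ, h₀⟩ := exists_isUnif A₀
  have hG := isGauss_Og h₀ M
  have hmem := mem_of_comap hγ
  obtain ⟨P, Q, hP, hQ, hQ0, h⟩ := Kron.exists_frac (hasNf_FK h₀ M) hG f hf
  let g : A₀ →+* A₀ := γ₀.restrict A₀ A₀ hmem
  have hι : ∀ R : LaurentSeries A₀, ι A₀ (coeffMap g R) = coeffMap γ₀ (ι A₀ R) := by
    intro R
    ext n
    rfl
  have hm : ∀ {R : LaurentSeries A₀}, ι A₀ R ∈ FK K M → ι A₀ (coeffMap g R) ∈ FK K M := by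
    intro R hR
    rw [hι]
    exact (gam K γ₀ M ⟨_, hR⟩).2
  have hmk : ∀ {R : LaurentSeries A₀} (hR : ι A₀ R ∈ FK K M),
      gam K γ₀ M ⟨_, hR⟩ = ⟨_, hm hR⟩ := fun {R} hR => Subtype.ext (hι R).symm
  have hQ1 : ρ A₀ (coeffMap g Q) ≠ 0 := by
    intro h0
    apply hQ0
    ext n
    have h1 : IsLocalRing.residue A₀ (g (Q.coeff n)) = 0 :=
      congrArg (fun s => HahnSeries.coeff s n) h0
    show IsLocalRing.residue A₀ (Q.coeff n) = 0
    rw [IsLocalRing.residue_eq_zero_iff] at h1 ⊢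
    by_contra hu
    have hu' : IsUnit (Q.coeff n) := by
      by_contra hn
      exact hu ((IsLocalRing.mem_maximalIdeal _).2 hn)
    exact ((IsLocalRing.mem_maximalIdeal _).1 h1) (hu'.map g)
  have hne : (⟨_, hm hQ⟩ : FK K M) ≠ 0 :=
    fun h => iota_ne_zero hQ1 (congrArg Subtype.val h)
  have h1 : gam K γ₀ M f * ⟨_, hm hQ⟩ = ⟨_, hm hP⟩ := by
    rw [← hmk hQ, ← hmk hP, ← map_mul, h]
  have h2 : gam K γ₀ M f = ⟨_, hm hP⟩ * (⟨_, hm hQ⟩ : FK K M)⁻¹ := by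
    rw [← h1, mul_inv_cancel_right₀ hne]
  rw [h2]
  exact mul_mem (hG.mem _ _) (hG.inv_mem _ _ hQ1)

theorem kron (hq : q.Prime) (hchar : A₀.valuation (q : K) < 1) {γ₀ : K →+* K}
    (hγ : IsFrobInv A₀ q γ₀) {f : FK K M} (hf : f ∈ Og A₀ M) :
    (Og A₀ (M * q)).valuation (be K M q f - al K M q (gam K γ₀ M f) ^ q) < 1 := by
  obtain ⟨ϖ, h₀⟩ := exists_isUnif A₀
  exact Kron.kron h₀ hq hchar hγ.frobInv (isGauss_Og h₀ M) (isGauss_Og h₀ (M * q)) f hf

omit [Algebra ℚ K] [IsDiscreteValuationRing A₀] [NeZero M] in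
theorem rho_a_eq_zero (hq : q.Prime) (hchar : A₀.valuation (q : K) < 1) :
    ρ A₀ (qExpand A₀ q (jqModC A₀) - jqModC A₀ ^ q) = 0 := by
  have : Fact q.Prime := ⟨hq⟩
  have := Kron.charP_residue hq hchar
  rw [map_sub, map_pow, Fermat.Agent.GAL.E.pow_char_eq_qExpand q, coeffMap_qExpand,
    coeffMap_jqModC, coeffMap_jqModC, sub_self]

/-- Kronecker's congruence for `j` (no Frobenius lift needed). -/
theorem kron_j (hq : q.Prime) (hchar : A₀.valuation (q : K) < 1) :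
    (Og A₀ (M * q)).valuation (be K M q (jK K M) - al K M q (jK K M) ^ q) < 1 := by
  obtain ⟨ϖ, h₀⟩ := exists_isUnif A₀
  have hmem : ι A₀ (qExpand A₀ q (jqModC A₀) - jqModC A₀ ^ q) ∈ FK K (M * q) := by
    rw [map_sub, map_pow]
    exact sub_mem (Kron.qE_mem (Kron.iota_j_mem (M := M)))
      (pow_mem (Kron.al_mem (Kron.iota_j_mem (M := M))) q)
  have e : be K M q (jK K M) - al K M q (jK K M) ^ q = ⟨_, hmem⟩ := by
    apply Subtype.ext
    show _ = ι A₀ (qExpand A₀ q (jqModC A₀) - jqModC A₀ ^ q)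
    rw [map_sub, map_pow, coeffMap_qExpand, ← Kron.coe_jK (M := M)]
    rfl
  rw [e]
  exact Kron.val_lt_one h₀ (isGauss_Og h₀ (M * q)) _ hmem (rho_a_eq_zero hq hchar)

/-- `j(z) - j(q z)^q` is a unit at `v_∞`. -/
theorem unit_j (hq : q.Prime) (hchar : A₀.valuation (q : K) < 1) :
    (Og A₀ (M * q)).valuation (al K M q (jK K M) - be K M q (jK K M) ^ q) = 1 := by
  obtain ⟨ϖ, h₀⟩ := exists_isUnif A₀
  exact Kron.val_bK_eq hq hchar (isGauss_Og h₀ (M * q))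

end Fermat.Agent.BAD.LevelQ.Mod

end
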