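/-
Project BAD, block LevelQ, sub-block LQ-MOD, section Frob (core, structure-free form):
an inverse Frobenius lift on a subfield of `ℚ̄` stable under the decomposition group.
-/
import Fermat.Agent.Lib.InertiaField.Closed
import Fermat.Prelude.Def_EllipticCurve_FrobeniusTrace

set_option autoImplicit false

noncomputable section

namespace Fermat.Agent.BAD.LevelQ.Mod

open Fermat.Agent.Lib.InertiaField Fermat.Agent.Lib.Frobenius

/-- `v(a) < 1` in terms of membership. -/
theorem frobCore_val_lt_one_iff {F : Type*} [Field F] (W : ValuationSubring F) (a : F) :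
    W.valuation a < 1 ↔ a = 0 ∨ a⁻¹ ∉ W := by
  rcases eq_or_ne a 0 with rfl | ha
  · simp
  · have hpos : 0 < W.valuation a := zero_lt_iff.2 ((_root_.map_ne_zero _).2 ha)
    rw [← W.valuation_le_one_iff, map_inv₀, inv_le_one₀ hpos, not_le]
    simp [ha]

/-- the valuation of the trace of a valuation ring on a subfield. -/
theorem frobCore_comap_val_lt_one {E F : Type*} [Field E] [Field F] [Algebra E F]
    (W : ValuationSubring F) (a : E) :
    (W.comap (algebraMap E F)).valuation a < 1 ↔ W.valuation (algebraMap E F a) < 1 := by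
  rw [frobCore_val_lt_one_iff, frobCore_val_lt_one_iff, ValuationSubring.mem_comap, map_inv₀,
    map_eq_zero]

/-- restriction of an automorphism of `ℚ̄` to a stable subfield. -/
def frobRestr (K₀ : IntermediateField ℚ Qb) (τ : GQ) (h : ∀ x ∈ K₀, τ x ∈ K₀) : K₀ →+* K₀ where
  toFun x := ⟨τ x, h x x.2⟩
  map_one' := Subtype.ext (map_one τ)
  map_mul' x y := Subtype.ext (map_mul τ (x : Qb) (y : Qb))
  map_zero' := Subtype.ext (map_zero τ)
  map_add' x y := Subtype.ext (map_add τ (x : Qb) (y : Qb))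

theorem coe_frobRestr (K₀ : IntermediateField ℚ Qb) (τ : GQ) (h : ∀ x ∈ K₀, τ x ∈ K₀) (x : K₀) :
    ((frobRestr K₀ τ h x : K₀) : Qb) = τ x := rfl

/-- a Frobenius element is congruent to the `q`-th power map. -/
theorem frobCore_apply_sub_pow_mem (A : ValuationSubring Qb) (q : ℕ) {σ : GQ}
    (hσ : A.IsFrobeniusAt σ q) {a : Qb} (ha : a ∈ A) : σ a - a ^ q ∈ A.nonunits := by
  obtain ⟨hd, h⟩ := hσ
  have h2 := h (IsLocalRing.residue A ⟨a, ha⟩)
  rw [← IsLocalRing.ResidueField.residue_smul, ← map_pow, ← sub_eq_zero, ← map_sub,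
    IsLocalRing.residue_eq_zero_iff] at h2
  rw [ValuationSubring.mem_nonunits_iff_exists_mem_maximalIdeal]
  exact ⟨_, h2⟩

/-- The restriction of the inverse of a Frobenius element: structure-free form. -/
theorem frobRestr_inv_spec (A : ValuationSubring Qb) {q : ℕ} {σ : GQ} (hσ : A.IsFrobeniusAt σ q)
    (K₀ : IntermediateField ℚ Qb) (h : ∀ x ∈ K₀, σ⁻¹ x ∈ K₀) :
    (A.comap (algebraMap K₀ Qb)).comap (frobRestr K₀ σ⁻¹ h) = A.comap (algebraMap K₀ Qb) ∧
      ∀ a ∈ A.comap (algebraMap K₀ Qb),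
        (A.comap (algebraMap K₀ Qb)).valuation (frobRestr K₀ σ⁻¹ h a ^ q - a) < 1 := by
  have hd : σ ∈ A.decompositionSubgroup ℚ := hσ.mem_decompositionSubgroup
  have hd' : σ⁻¹ ∈ A.decompositionSubgroup ℚ := inv_mem hd
  have hσσ : ∀ x : Qb, σ (σ⁻¹ x) = x := fun x => σ.apply_symm_apply x
  refine ⟨?_, fun a ha => ?_⟩
  · ext a
    show σ⁻¹ (a : Qb) ∈ A ↔ (a : Qb) ∈ A
    refine ⟨fun h1 => ?_, fun h1 => apply_mem_of_mem_decomposition A hd' h1⟩
    have h2 := apply_mem_of_mem_decomposition A hd h1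
    rwa [hσσ] at h2
  · have ha' : (a : Qb) ∈ A := ha
    have hb : σ⁻¹ (a : Qb) ∈ A := apply_mem_of_mem_decomposition A hd' ha'
    have h1 := frobCore_apply_sub_pow_mem A q hσ hb
    rw [hσσ, ValuationSubring.mem_nonunits_iff] at h1
    rw [frobCore_comap_val_lt_one]
    have h2 : algebraMap K₀ Qb (frobRestr K₀ σ⁻¹ h a ^ q - a) = -((a : Qb) - σ⁻¹ (a : Qb) ^ q) := by
      rw [map_sub, map_pow, neg_sub]
      rfl
    rw [h2, Valuation.map_neg]
    exact h1

/-- Existence of an inverse Frobenius lift on a subfield of `ℚ̄` stable under the decomposition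
group: structure-free form. -/
theorem exists_frobInv_core (A : ValuationSubring Qb) {q : ℕ} (hq : q.Prime)
    (hA : A.LiesOverPrime q) (K₀ : IntermediateField ℚ Qb)
    (hK : ∀ σ : GQ, σ ∈ A.decompositionSubgroup ℚ → ∀ x ∈ K₀, σ x ∈ K₀) :
    ∃ γ₀ : K₀ →+* K₀,
      (A.comap (algebraMap K₀ Qb)).comap γ₀ = A.comap (algebraMap K₀ Qb) ∧
      ∀ a ∈ A.comap (algebraMap K₀ Qb),
        (A.comap (algebraMap K₀ Qb)).valuation (γ₀ a ^ q - a) < 1 := by
  obtain ⟨σ, hσ⟩ := exists_isFrobeniusAt A q hq hA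
  exact ⟨_, frobRestr_inv_spec A hσ K₀ (hK _ (inv_mem hσ.mem_decompositionSubgroup))⟩

/-- A normal extension of `ℚ` is stable under the whole Galois group. -/
theorem frob_stable_of_normal (A : ValuationSubring Qb) (K₀ : IntermediateField ℚ Qb)
    [Normal ℚ K₀] :
    ∀ σ : GQ, σ ∈ A.decompositionSubgroup ℚ → ∀ x ∈ K₀, σ x ∈ K₀ := by
  intro σ _ x hx
  have h1 : ((σ.restrictNormal K₀ ⟨x, hx⟩ : K₀) : Qb) = σ x :=
    AlgEquiv.restrictNormal_commutes σ K₀ ⟨x, hx⟩
  rw [← h1]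
  exact (σ.restrictNormal K₀ ⟨x, hx⟩).2

/-- The inertia field is stable under the decomposition group. -/
theorem frob_stable_K0 (A : ValuationSubring Qb) :
    ∀ σ : GQ, σ ∈ A.decompositionSubgroup ℚ → ∀ x ∈ K0 A, σ x ∈ K0 A := fun _ hσ _ hx =>
  apply_mem_K0 A hσ hx

end Fermat.Agent.BAD.LevelQ.Mod

end
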