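/-
Project BAD, block LevelQ, sub-block LQ-MOD, section Frob: existence of the inverse Frobenius lift
`γ₀` on a subfield of `ℚ̄` stable under the decomposition group (a normal extension of `ℚ`, the
inertia field, ...).
-/
import Fermat.Agent.BAD.LevelQ.Mod.FrobDef
import Fermat.Agent.BAD.LevelQ.Mod.FrobCore
import Fermat.Agent.S24.Defs

set_option autoImplicit false
set_option linter.unusedSectionVars false

noncomputable section

namespace Fermat.Agent.BAD.LevelQ.Mod

open Fermat.Agent.S24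

variable {M q : ℕ} [NeZero M] [NeZero q]

/-! ### Frob : existence of `γ₀` (file Mod/Frob.lean) -/
section Frob

/-- For a subfield of `ℚ̄` stable under the decomposition group (a normal extension of `ℚ`, the
inertia field, ...). -/
theorem exists_isFrobInv (A : ValuationSubring Kbar) (hq : q.Prime) (hA : A.LiesOverPrime q)
    (K₀ : IntermediateField ℚ Kbar)
    (hK : ∀ σ : Kbar ≃ₐ[ℚ] Kbar, σ ∈ A.decompositionSubgroup ℚ → ∀ x ∈ K₀, σ x ∈ K₀) :
    ∃ γ₀ : K₀ →+* K₀, IsFrobInv (A.comap (algebraMap K₀ Kbar)) q γ₀ := by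
  obtain ⟨γ₀, h1, h2⟩ := exists_frobInv_core A hq hA K₀ hK
  exact ⟨γ₀, h1, h2⟩

/-- (i) a normal extension of `ℚ`. -/
theorem exists_isFrobInv_of_normal (A : ValuationSubring Kbar) (hq : q.Prime)
    (hA : A.LiesOverPrime q) (K₀ : IntermediateField ℚ Kbar) [Normal ℚ K₀] :
    ∃ γ₀ : K₀ →+* K₀, IsFrobInv (A.comap (algebraMap K₀ Kbar)) q γ₀ :=
  exists_isFrobInv A hq hA K₀ (frob_stable_of_normal A K₀)

/-- (ii) the inertia field. -/
theorem exists_isFrobInv_K0 (A : ValuationSubring Kbar) (hq : q.Prime) (hA : A.LiesOverPrime q) :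
    ∃ γ₀ : Lib.InertiaField.K0 A →+* Lib.InertiaField.K0 A,
      IsFrobInv (Lib.InertiaField.A0 A) q γ₀ :=
  exists_isFrobInv A hq hA (Lib.InertiaField.K0 A) (frob_stable_K0 A)

end Frob

end Fermat.Agent.BAD.LevelQ.Mod

end
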