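/-
Project BAD, block LevelQ, sub-block LQ-MOD, section Pole (helper39 / helper88; this file helper267):
`x'(q z)` is integral over `K[x'(z)]`, by descent from `ℚ̄`.
-/
import Fermat.Agent.BAD.LevelQ.Mod.Defs
import Fermat.Agent.S18.Export.IsChartBase
import Fermat.Prelude.Thm_ModularCurve_coeffMap_qExpand

set_option autoImplicit false

noncomputable section

namespace Fermat.Agent.BAD.LevelQ.Mod

open ModularCurve Fermat.Agent.S24 Fermat.Agent.S18 Fermat.Agent.S18.Vert
  Fermat.Agent.S18.Descent Fermat.Agent.S36.Mod IntermediateField Polynomial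

variable {K : Type*} [Field K] [Algebra ℚ K] [Algebra K Kbar]
  {M q : ℕ} [NeZero M] [NeZero q]

section Pole

/-- The statement over `ℚ̄` (providers: helper284 `BaseOK` for `j, h₂, h₃`; helper208 for
`h₄, h₉`). -/
def BeInt {M q : ℕ} [NeZero M] [NeZero q] (D : BaseData M q) : Prop :=
  heckeBetaBar Kbar M q (D.xK Kbar) ∈
    chart (⊤ : Subring Kbar) (heckeAlphaBar Kbar M q (D.xK Kbar))

/-- base change of the constants commutes with `f(z) ↦ f(z)` -/
theorem baseChangeMap_al {L L' : Type*} [Field L] [Field L'] [Algebra ℚ L] [Algebra ℚ L']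
    (φ : L →+* L') (y : FK L M) :
    baseChangeMap (modularFunctionFieldFull (M * q)) φ (heckeAlphaBar L M q y) =
      heckeAlphaBar L' M q (baseChangeMap (modularFunctionFieldFull M) φ y) := by
  apply Subtype.ext
  rw [coe_baseChangeMap, coe_heckeAlphaBar, coe_heckeAlphaBar, coe_baseChangeMap]

/-- base change of the constants commutes with `f(z) ↦ f(q z)` -/
theorem baseChangeMap_be {L L' : Type*} [Field L] [Field L'] [Algebra ℚ L] [Algebra ℚ L']
    (φ : L →+* L') (y : FK L M) :
    baseChangeMap (modularFunctionFieldFull (M * q)) φ (heckeBetaBar L M q y) =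
      heckeBetaBar L' M q (baseChangeMap (modularFunctionFieldFull M) φ y) := by
  apply Subtype.ext
  rw [coe_baseChangeMap, coe_heckeBetaBar, coe_heckeBetaBar, coe_baseChangeMap, coeffMap_qExpand]

theorem be_int_of_bar (D : BaseData M q) (h : BeInt D) :
    be K M q (D.xK K) ∈ chart (⊤ : Subring K) (al K M q (D.xK K)) := by
  have : Algebra.IsAlgebraic K Kbar := Export.isAlgebraic_Kbar
  rw [mem_chart_top_descent
    (baseChangeMap (modularFunctionFieldFull (M * q)) (algebraMap K Kbar))
    (baseChangeMap_algebraMap (F₀ := modularFunctionFieldFull (M * q)) (algebraMap K Kbar))]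
  rw [be, al, baseChangeMap_be, baseChangeMap_al, Export.baseChangeMap_xK]
  exact h

end Pole

end Fermat.Agent.BAD.LevelQ.Mod
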