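/-
Project BAD, block LevelQ, sub-block LQ-MOD, section Table (task LQM-TABLE): comaps and residues of
the Gauss ring along `al`, `be`.  Direct consequences of `BAD/LevelQ/Mod/Complete/Std.lean`.
-/
import Fermat.Agent.BAD.LevelQ.Mod.Defs
import Fermat.Agent.BAD.LevelQ.Mod.Complete.Std

set_option autoImplicit false

noncomputable section

namespace Fermat.Agent.BAD.LevelQ.Mod

open ModularCurve Fermat.Agent.S24 Fermat.Agent.S18 Fermat.Agent.S18.Vert
  Fermat.Agent.S18.Descent Fermat.Agent.S36.Mod IntermediateField Polynomial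

variable {K : Type*} [Field K] [Algebra ℚ K] [Algebra K Kbar]
  {A₀ : ValuationSubring K} [IsDiscreteValuationRing A₀] {ϖ₀ : K}
  {M q : ℕ} [NeZero M] [NeZero q]

/-! ### Table : comaps and residues along `al`, `be` (file Mod/Table.lean) -/
section Table

omit [Algebra K Kbar] in
theorem al_mem_iff (f : FK K M) : al K M q f ∈ Og A₀ (M * q) ↔ f ∈ Og A₀ M :=
  std_al_mem_iff A₀ M q f

omit [Algebra K Kbar] in
theorem be_mem_iff (f : FK K M) : be K M q f ∈ Og A₀ (M * q) ↔ f ∈ Og A₀ M :=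
  std_be_mem_iff A₀ M q f

omit [Algebra K Kbar] in
theorem res_al (f : FK K M) (h : f ∈ Og A₀ M) (h' : al K M q f ∈ Og A₀ (M * q)) :
    (stdEmb A₀ (M * q)).res ⟨al K M q f, h'⟩ = (stdEmb A₀ M).res ⟨f, h⟩ :=
  std_res_al A₀ M q f h h'

omit [Algebra K Kbar] in
theorem res_be (f : FK K M) (h : f ∈ Og A₀ M) (h' : be K M q f ∈ Og A₀ (M * q)) :
    (stdEmb A₀ (M * q)).res ⟨be K M q f, h'⟩ = qExpand _ q ((stdEmb A₀ M).res ⟨f, h⟩) :=
  std_res_be A₀ M q f h h'

end Table

end Fermat.Agent.BAD.LevelQ.Mod
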