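/-
Project BAD, block LevelQ, sub-block LQ-MOD, section Two (helper237): completeness of the list
`{v_∞, v_0}` of vertical valuation rings of level `M q`, and residue degree one for `(v_∞, α)`.

Everything follows from `Mod/Complete/Main.lean` (the same statements for arbitrary rings with
`IsGauss`), the Atkin-Lehner relations (`Mod/AL.lean`) and Kronecker's congruence for `j`.
-/
import Fermat.Agent.BAD.LevelQ.Mod.Complete.Main
import Fermat.Agent.BAD.LevelQ.Mod.Gauss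
import Fermat.Agent.BAD.LevelQ.Mod.AL
import Fermat.Agent.BAD.LevelQ.Mod.Kron
import Fermat.Agent.BAD.LevelQ.Mod.Table
import Fermat.Agent.BAD.LevelQ.Hub.VertAbs
import Fermat.Agent.S18.Export.IsChartBase

set_option autoImplicit false
set_option linter.unusedSectionVars false
set_option linter.style.haveILetI false

noncomputable section

namespace Fermat.Agent.BAD.LevelQ.Mod

open ModularCurve Fermat.Agent.S24 Fermat.Agent.S18 Fermat.Agent.S18.Vert
  Fermat.Agent.S18.Descent Fermat.Agent.S36.Mod IntermediateField Polynomial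

variable {K : Type*} [Field K] [Algebra ℚ K] [Algebra K Kbar]
  {A₀ : ValuationSubring K} [IsDiscreteValuationRing A₀] {ϖ₀ : K}
  {M q : ℕ} [NeZero M] [NeZero q]

section Two

private theorem ww_kr (hc : M.Coprime q) :
    ww K hc (be K M q (jK K M) - al K M q (jK K M) ^ q) =
      al K M q (jK K M) - be K M q (jK K M) ^ q := by
  rw [map_sub, map_pow, ww_be, ww_al]

/-- Kronecker's congruence for `j`. -/
private theorem kron_j' (hq : q.Prime) (hchar : A₀.valuation (q : K) < 1) :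
    (Og A₀ (M * q)).valuation (be K M q (jK K M) - al K M q (jK K M) ^ q) < 1 := by
  haveI : Fact q.Prime := ⟨hq⟩
  haveI : CharP (IsLocalRing.ResidueField A₀) q := Kron.charP_residue hq hchar
  have hj : jK K M ∈ Og A₀ M := std_jK_mem A₀ M
  have h1 : be K M q (jK K M) ∈ Og A₀ (M * q) := (be_mem_iff _).2 hj
  have h2 : al K M q (jK K M) ∈ Og A₀ (M * q) := (al_mem_iff _).2 hj
  have hf : be K M q (jK K M) - al K M q (jK K M) ^ q ∈ Og A₀ (M * q) :=
    sub_mem h1 (pow_mem h2 q)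
  rw [valuation_lt_one_iff_res _ _ hf]
  have e : (⟨_, hf⟩ : (stdEmb A₀ (M * q)).val) =
      (⟨_, h1⟩ : (stdEmb A₀ (M * q)).val) - (⟨_, h2⟩ : (stdEmb A₀ (M * q)).val) ^ q := rfl
  rw [e, map_sub, map_pow, res_be _ hj, res_al _ hj]
  have hres : (stdEmb A₀ M).res ⟨jK K M, hj⟩ = jqModC (IsLocalRing.ResidueField A₀) :=
    std_res_jK A₀ M
  rw [hres, S36.Mod.pow_char_eq_qExpand q, coeffMap_jqModC, sub_self]

private theorem unit_j' (h₀ : IsUnif A₀ ϖ₀) (hq : q.Prime) (hchar : A₀.valuation (q : K) < 1) :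
    (Og A₀ (M * q)).valuation (al K M q (jK K M) - be K M q (jK K M) ^ q) = 1 :=
  Kron.val_bK_eq hq hchar (isGauss_Og h₀ (M * q))

private theorem isSep_of_twoHyp {E F : Type*} [Field E] [Field F] [Algebra E F]
    {R : ValuationSubring E} {ϖ : E} {V₁ V₂ : ValuationSubring F} {d : ℕ} {e θ : F}
    (H : TwoHyp R ϖ V₁ V₂ d e θ) {V : Fin 2 → ValuationSubring F} (h0 : V 0 = V₁)
    (h1 : V 1 = V₂) : IsSep V := by
  have key : ∀ (W : ValuationSubring F) (z : F), W.valuation (z - 1) < 1 → W.valuation z = 1 := by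
    intro W z hz
    have : z = (z - 1) + 1 := by ring
    rw [this, Valuation.map_add_eq_of_lt_right _ (by rwa [map_one]), map_one]
  have hall : ∀ z : F, z ∈ V₁ → z ∈ V₂ → ∀ d, z ∈ V d := by
    intro z hz1 hz2 d
    have hd : d = 0 ∨ d = 1 := by omega
    rcases hd with rfl | rfl
    · rw [h0]; exact hz1
    · rw [h1]; exact hz2
  intro c c' hcc
  have hc : (c = 0 ∧ c' = 1) ∨ (c = 1 ∧ c' = 0) := by omega
  rcases hc with ⟨rfl, rfl⟩ | ⟨rfl, rfl⟩
  · refine ⟨e, hall e H.e_mem₁ H.e_mem₂, ?_, ?_⟩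
    · rw [h0]; exact key _ _ H.e₁
    · rw [h1]; exact H.e₂
  · refine ⟨1 - e, hall _ (V₁.sub_mem V₁.one_mem H.e_mem₁) (V₂.sub_mem V₂.one_mem H.e_mem₂), ?_, ?_⟩
    · rw [h1]
      apply key
      have : 1 - e - 1 = -e := by ring
      rw [this, Valuation.map_neg]
      exact H.e₂
    · rw [h0]; exact H.one_sub₁

private theorem VV_zero (hc : M.Coprime q) : VV A₀ hc 0 = Og A₀ (M * q) := rfl

private theorem VV_one_eq (hc : M.Coprime q) :
    VV A₀ hc 1 = (Og A₀ (M * q)).comap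
      ((ww K hc : FK K (M * q) ≃+* FK K (M * q)) : FK K (M * q) →+* FK K (M * q)) := by
  ext y
  rw [mem_VV_one, VV_zero, ValuationSubring.mem_comap]
  rfl

theorem twoHyp (h₀ : IsUnif A₀ ϖ₀) (hq : q.Prime) (hqM : ¬ q ∣ M)
    (hchar : A₀.valuation (q : K) < 1) (hc : M.Coprime q) :
    letI := (al K M q).toRingHom.toAlgebra
    ∃ e : FK K (M * q), TwoHyp (Og A₀ M) (algebraMap K (FK K M) ϖ₀) (VV A₀ hc 0) (VV A₀ hc 1) q e
      (be K M q (jK K M)) := by
  rw [VV_one_eq hc, VV_zero hc]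
  exact ⟨_, twoHyp_FK h₀ hq hqM (isGauss_Og h₀ M) (isGauss_Og h₀ (M * q)) (ww K hc) (ww_al hc)
    (ww_be hc) (ww_ww hc) (kron_j' hq hchar) (by rw [ww_kr]; exact unit_j' h₀ hq hchar)⟩

theorem dense_oo (h₀ : IsUnif A₀ ϖ₀) (hq : q.Prime) (hqM : ¬ q ∣ M)
    (hchar : A₀.valuation (q : K) < 1) (hc : M.Coprime q) :
    ∀ y ∈ VV A₀ hc 0, ∃ r ∈ Og A₀ M, (VV A₀ hc 0).valuation (y - al K M q r) < 1 := by
  rw [VV_zero hc]
  exact dense_FK h₀ hq hqM (isGauss_Og h₀ M) (isGauss_Og h₀ (M * q)) (ww K hc) (ww_al hc) (ww_be hc)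
    (ww_ww hc) (kron_j' hq hchar) (by rw [ww_kr]; exact unit_j' h₀ hq hchar)

theorem integral_al (h₀ : IsUnif A₀ ϖ₀) (hq : q.Prime) (hqM : ¬ q ∣ M)
    (hchar : A₀.valuation (q : K) < 1) (hc : M.Coprime q) :
    ∀ y : FK K (M * q), (∀ c, y ∈ VV A₀ hc c) →
      ∃ p : (FK K M)[X], p.Monic ∧ (∀ i, p.coeff i ∈ Og A₀ M) ∧
        (p.map (al K M q).toRingHom).eval y = 0 := fun y hy =>
  integral_FK h₀ hq hqM (isGauss_Og h₀ M) (isGauss_Og h₀ (M * q)) (ww K hc) (ww_al hc) (ww_be hc)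
    (ww_ww hc) (kron_j' hq hchar) (by rw [ww_kr]; exact unit_j' h₀ hq hchar) y
    (by rw [← VV_zero hc]; exact hy 0) (by rw [← VV_zero hc]; exact (mem_VV_one hc y).1 (hy 1))

/-- `q / ϖ₀ ∈ A₀`. -/
private theorem div_mem_of_char (h₀ : IsUnif A₀ ϖ₀) (hchar : A₀.valuation (q : K) < 1) :
    (q : K) / ϖ₀ ∈ A₀ := (LevelQ.Two.lt_one_iff_div_mem h₀ _).1 hchar

theorem isMVert_al (h₀ : IsUnif A₀ ϖ₀) (hq : q.Prime) (hqM : ¬ q ∣ M)
    (hchar : A₀.valuation (q : K) < 1) (hc : M.Coprime q) (D : BaseData M q) :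
    IsMVert A₀ ϖ₀ (VV A₀ hc) K⟮al K M q (D.xK K)⟯ := by
  haveI : Fact q.Prime := ⟨hq⟩
  exact complete_FK h₀ hq hqM (isGauss_Og h₀ M) (isGauss_Og h₀ (M * q)) (ww K hc) (ww_al hc)
    (ww_be hc) (ww_ww hc) (kron_j' hq hchar) (by rw [ww_kr]; exact unit_j' h₀ hq hchar) (VV_zero hc)
    (mem_VV_one hc)
    (S18.Export.isVert_base h₀ hqM (div_mem_of_char h₀ hchar) D (isGauss_Og h₀ M))

/-- a valuation ring containing a discrete valuation ring, in which the uniformiser is not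
invertible, is equal to it. -/
private theorem eq_of_le_of_isUnif {F : Type*} [Field F] {V W : ValuationSubring F} {ϖ : F}
    (hU : IsUnif V ϖ) (hle : V ≤ W) (hϖW : ϖ⁻¹ ∉ W) : W = V := by
  refine le_antisymm ?_ hle
  intro y hy
  by_contra hyV
  have hy0 : y ≠ 0 := fun h => hyV (h ▸ V.zero_mem)
  obtain ⟨n, hn1, hn2⟩ := hU.exists_zpow y hy0
  have hϖ0 : ϖ ≠ 0 := hU.ne_zero
  have hn : n < 0 := by
    by_contra hn
    apply hyV
    have : y = y / ϖ ^ n * ϖ ^ n := by field_simp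
    rw [this]
    exact V.mul_mem _ _ hn1 (hU.zpow_mem (not_lt.1 hn))
  apply hϖW
  have e : ϖ⁻¹ = y * (y / ϖ ^ n)⁻¹ * ϖ ^ (-n - 1) := by
    rw [inv_div, mul_div_assoc', mul_comm y, mul_div_assoc, div_self hy0, mul_one,
      ← zpow_add₀ hϖ0, ← zpow_neg_one]
    congr 1
    ring
  rw [e]
  exact W.mul_mem _ _ (W.mul_mem _ _ hy (hle hn2)) (hle (hU.zpow_mem (by omega)))

/-- valuation rings are integrally closed. -/
private theorem mem_of_monic_root {E F : Type*} [Field E] [Field F] (φ : E →+* F)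
    (W : ValuationSubring F) (p : E[X]) (hp : p.Monic) (hc : ∀ i, φ (p.coeff i) ∈ W) (y : F)
    (h0 : (p.map φ).eval y = 0) : y ∈ W := by
  have hint : IsIntegral W y := by
    have hl : p.map φ ∈ Polynomial.lifts (algebraMap W F) := by
      rw [Polynomial.lifts_iff_coeff_lifts]
      intro n
      rw [coeff_map]
      exact ⟨⟨_, hc n⟩, rfl⟩
    obtain ⟨p', hp', -, hm⟩ := Polynomial.lifts_and_natDegree_eq_and_monic hl (hp.map _)
    exact ⟨p', hm, by rw [Polynomial.eval₂_eq_eval_map, hp', h0]⟩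
  obtain ⟨z, hz⟩ := IsIntegrallyClosed.isIntegral_iff.mp hint
  exact hz ▸ z.2

/-- completeness in the form used by S36 -/
theorem complete_al (h₀ : IsUnif A₀ ϖ₀) (hq : q.Prime) (hqM : ¬ q ∣ M)
    (hchar : A₀.valuation (q : K) < 1) (hc : M.Coprime q) (W : ValuationSubring (FK K (M * q)))
    (hW : W.comap (al K M q).toRingHom = Og A₀ M) : W = VV A₀ hc 0 ∨ W = VV A₀ hc 1 := by
  have hal : ∀ r, (al K M q).toRingHom r ∈ W ↔ r ∈ Og A₀ M := fun r => by
    rw [← hW, ValuationSubring.mem_comap]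
  -- `⋂ VV c ⊆ W`
  have hle : ∀ y : FK K (M * q), (∀ c, y ∈ VV A₀ hc c) → y ∈ W := by
    intro y hy
    obtain ⟨p, hp, hcoe, h0⟩ := integral_al h₀ hq hqM hchar hc y hy
    exact mem_of_monic_root _ W p hp (fun i => (hal _).2 (hcoe i)) y h0
  letI := (al K M q).toRingHom.toAlgebra
  obtain ⟨e, hT⟩ := twoHyp (A₀ := A₀) h₀ hq hqM hchar hc
  have hϖ : algebraMap (FK K M) (FK K (M * q)) (algebraMap K (FK K M) ϖ₀) =
      algebraMap K (FK K (M * q)) ϖ₀ := (al K M q).commutes ϖ₀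
  have hUV : ∀ c, IsUnif (VV A₀ hc c) (algebraMap K (FK K (M * q)) ϖ₀) := by
    intro c
    have hc01 : c = 0 ∨ c = 1 := by omega
    rw [← hϖ]
    rcases hc01 with rfl | rfl
    · exact hT.unif₁
    · exact hT.unif₂
  obtain ⟨c, hcW⟩ := exists_le_of_iInf_le (VV A₀ hc) (isSep_of_twoHyp hT rfl rfl)
    (algebraMap K (FK K (M * q)) ϖ₀) hUV W hle
  -- the uniformiser is not invertible in `W`
  have hϖW : (algebraMap K (FK K (M * q)) ϖ₀)⁻¹ ∉ W := by
    intro h
    have h1 : (al K M q).toRingHom (algebraMap K (FK K M) ϖ₀)⁻¹ ∈ W := by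
      rw [map_inv₀]
      have : (al K M q).toRingHom (algebraMap K (FK K M) ϖ₀) = algebraMap K (FK K (M * q)) ϖ₀ :=
        (al K M q).commutes ϖ₀
      rw [this]
      exact h
    exact (isGauss_Og h₀ M).unif.inv_notMem ((hal _).1 h1)
  have heq : W = VV A₀ hc c := eq_of_le_of_isUnif (hUV c) hcW hϖW
  have hc01 : c = 0 ∨ c = 1 := by omega
  rcases hc01 with rfl | rfl
  · exact Or.inl heq
  · exact Or.inr heq

end Two

end Fermat.Agent.BAD.LevelQ.Mod

end
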