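/-
Project BAD, block LevelQ, sub-block LQ-MOD, section Main (helper39 / helper88): THE CONCRETE INSTANCE
of the hub `LQ` at level `M q`, over an abstract field `K ⊆ ℚ̄` and ANY discrete valuation ring `A₀`
of `K` of residue characteristic `q`.
-/
import Fermat.Agent.BAD.LevelQ.Mod.Defs
import Fermat.Agent.BAD.LevelQ.Mod.Gauss
import Fermat.Agent.BAD.LevelQ.Mod.AL
import Fermat.Agent.BAD.LevelQ.Mod.Table
import Fermat.Agent.BAD.LevelQ.Mod.Kron
import Fermat.Agent.BAD.LevelQ.Mod.Sep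
import Fermat.Agent.BAD.LevelQ.Mod.Two
import Fermat.Agent.BAD.LevelQ.Mod.Pole
import Fermat.Agent.S18.Export.IsChartBase

set_option autoImplicit false
set_option linter.unusedSectionVars false

noncomputable section

namespace Fermat.Agent.BAD.LevelQ.Mod

open ModularCurve Fermat.Agent.S24 Fermat.Agent.S18 Fermat.Agent.S18.Vert
  Fermat.Agent.S18.Descent Fermat.Agent.S36.Mod IntermediateField Polynomial

variable {K : Type*} [Field K] [Algebra ℚ K] [Algebra K Kbar]
  {A₀ : ValuationSubring K} [IsDiscreteValuationRing A₀] {ϖ₀ : K}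
  {M q : ℕ} [NeZero M] [NeZero q]

theorem lq (h₀ : IsUnif A₀ ϖ₀) (hq : q.Prime) (hqM : ¬ q ∣ M) (hchar : A₀.valuation (q : K) < 1)
    (hc : M.Coprime q) {γ₀ : K →+* K} (hγ : IsFrobInv A₀ q γ₀) (D : BaseData M q) (hD : BeInt D) :
    LQ A₀ ϖ₀ q (al K M q) (be K M q) (ww K hc) (gam K γ₀ M) (Og A₀ M) (VV A₀ hc) (D.xK K) := by
  haveI : Fact q.Prime := ⟨hq⟩
  have hℓA : (q : K) / ϖ₀ ∈ A₀ := (Two.lt_one_iff_div_mem h₀ _).1 hchar
  have hG := isGauss_Og (K := K) h₀ M
  exact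
  { prime := hq
    char := hchar
    w_al := ww_al hc
    w_be := ww_be hc
    w_w := ww_ww hc
    V_one := mem_VV_one hc
    vert' := Export.isVert_base h₀ hqM hℓA D hG
    coord' := isCoord_base h₀ D hG
    chart₁' := Export.isChart_base h₀ hqM hℓA D hG
    chart₂' := Export.isChart_base_inv h₀ hqM hℓA D hG
    unif := isUnif_VV h₀ hc 0
    comap_al := al_mem_iff
    comap_be := be_mem_iff
    dense := dense_oo h₀ hq hqM hchar hc
    γ_const := fun a ha => ⟨γ₀ a, hγ.mem a ha, gam_const γ₀ a⟩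
    γ_x := gam_xK γ₀ D
    γ_mem := fun f hf => gam_mem hγ.comap hf
    kron := fun f hf => kron hq hchar hγ hf
    sep := isSep_VV hq hchar hc
    complete := isMVert_al h₀ hq hqM hchar hc D
    be_int := be_int_of_bar D hD }

/-- The same without instance argument: everything the consumers need, in one statement. -/
theorem exists_LQ {A₀ : ValuationSubring K} (h₀ : IsUnif A₀ ϖ₀) (hq : q.Prime) (hqM : ¬ q ∣ M)
    (hchar : A₀.valuation (q : K) < 1) {γ₀ : K →+* K} (hγ : IsFrobInv A₀ q γ₀)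
    (D : BaseData M q) (hD : BeInt D) :
    ∃ (w : FK K (M * q) ≃ₐ[K] FK K (M * q)) (Ow' : ValuationSubring (FK K M))
      (V : Fin 2 → ValuationSubring (FK K (M * q))),
      LQ A₀ ϖ₀ q (heckeAlphaBar K M q) (heckeBetaBar K M q) w (gam K γ₀ M) Ow' V (D.xK K) ∧
      IsGauss A₀ ϖ₀ (FK K M) Ow' ∧ IsGauss A₀ ϖ₀ (FK K (M * q)) (V 0) := by
  haveI : IsDiscreteValuationRing A₀ := h₀.isDiscreteValuationRing
  have hc : M.Coprime q := (Nat.Coprime.symm ((Nat.Prime.coprime_iff_not_dvd hq).2 hqM))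
  exact ⟨ww K hc, Og A₀ M, VV A₀ hc, lq h₀ hq hqM hchar hc hγ D hD, isGauss_Og h₀ M,
    isGauss_Og h₀ (M * q)⟩

end Fermat.Agent.BAD.LevelQ.Mod

end
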