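/-
Project BAD, block LevelQ, sub-block LQ-MOD, section Pole, complement (helper284):
`BeInt D` from `S34.Nodal.Inst.BaseOK`, and the existence of a good base `D` (`j` for `q ≥ 5`, `h₂` for
`q = 3`, `2 ∣ M`, `h₃` for `q = 2`, `3 ∣ M`) with `BeInt D` and `BaseOK M q (D.xK ℚ̄)`.
-/
import Fermat.Agent.BAD.LevelQ.Mod.Pole
import Fermat.Agent.S34.Nodal.Inst.K.Ord.BaseOK
import Fermat.Agent.S34.Nodal.Inst.Base

set_option autoImplicit false

namespace Fermat.Agent.BAD.LevelQ.Mod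

open ModularCurve Fermat.Agent.S24 Fermat.Agent.S18 Fermat.Agent.S34.Nodal.Inst

variable {M q : ℕ} [NeZero M] [NeZero q]

theorem beInt_of_baseOK (D : BaseData M q) (h : BaseOK M q (D.xK Kbar)) : BeInt D :=
  (S18.mem_chart_top_iff_isIntegral _ _).mpr h.be_int

/-- **The good bases.** -/
theorem exists_good_base (hq : q.Prime)
    (h : 5 ≤ q ∨ (q = 3 ∧ 2 ∣ M) ∨ (q = 2 ∧ 3 ∣ M)) :
    ∃ D : BaseData M q, BaseOK M q (D.xK Kbar) ∧ BeInt D := by
  rcases h with h | ⟨rfl, h⟩ | ⟨rfl, h⟩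
  · obtain ⟨D, -, hD⟩ := Base.exists_baseData_j M q hq h
    have hB : BaseOK M q (D.xK Kbar) := by rw [hD]; exact Ord.baseOK_j hq
    exact ⟨D, hB, beInt_of_baseOK D hB⟩
  · obtain ⟨D, -, hD⟩ := Base.exists_baseData_h2 M h
    have hB : BaseOK M 3 (D.xK Kbar) := by rw [hD]; exact Ord.baseOK_h2 hq h (by norm_num)
    exact ⟨D, hB, beInt_of_baseOK D hB⟩
  · obtain ⟨D, -, hD⟩ := Base.exists_baseData_h3 M h
    have hB : BaseOK M 2 (D.xK Kbar) := by rw [hD]; exact Ord.baseOK_h3 hq h (by norm_num)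
    exact ⟨D, hB, beInt_of_baseOK D hB⟩

end Fermat.Agent.BAD.LevelQ.Mod
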