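/-
Project BAD, block LevelQ, sub-block LQ-MOD, section Main, corollaries (helper39): THE CONCRETE
INSTANCE of the hub `LQ` at level `M q` over SUBFIELDS of `ℚ̄`, with the EXPLICIT data `ww`, `Og`, `VV`
(the existential forms are in `Mod/MainK0.lean`, helper88):
* `lq_sub`    : a subfield stable under the decomposition group, with a discrete valuation;
* `lq_normal` : a normal extension of `ℚ`;
* `lq_inertia` : the inertia field (uniformiser `q`);
* `exists_lq_inertia` : the same with the good base chosen (`j`, `h₂`, `h₃`).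
-/
import Fermat.Agent.BAD.LevelQ.Mod.Main
import Fermat.Agent.BAD.LevelQ.Mod.Frob
import Fermat.Agent.BAD.LevelQ.Mod.PoleH
import Fermat.Agent.BAD.Bridge.BaseHyp

set_option autoImplicit false
set_option linter.unusedSectionVars false

noncomputable section

namespace Fermat.Agent.BAD.LevelQ.Mod

open ModularCurve Fermat.Agent.S24 Fermat.Agent.S18 Fermat.Agent.S18.Vert
  Fermat.Agent.S18.Descent Fermat.Agent.S36.Mod Fermat.Agent.Lib.InertiaField

variable {M q : ℕ} [NeZero M] [NeZero q]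

/-- the residue characteristic of the restriction of `A` to a subfield -/
theorem valuation_natCast_comap_lt_one (A : ValuationSubring Kbar) (hA : A.LiesOverPrime q)
    (K₀ : IntermediateField ℚ Kbar) :
    (A.comap (algebraMap K₀ Kbar)).valuation (q : K₀) < 1 := by
  have h1 : A.valuation ((q : ℕ) : Kbar) < 1 := (ValuationSubring.mem_nonunits_iff A).1 hA
  by_contra h
  have h2 : ((q : K₀))⁻¹ ∈ A.comap (algebraMap K₀ Kbar) := by
    rw [← ValuationSubring.valuation_le_one_iff, map_inv₀]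
    exact inv_le_one_of_one_le₀ (not_lt.1 h)
  have h3 : ((q : ℕ) : Kbar)⁻¹ ∈ A := by
    have := ValuationSubring.mem_comap.1 h2
    simpa using this
  rw [← ValuationSubring.valuation_le_one_iff, map_inv₀] at h3
  have hq0 : A.valuation ((q : ℕ) : Kbar) ≠ 0 :=
    (map_ne_zero _).2 (by exact_mod_cast (NeZero.ne q))
  exact absurd h3 (not_le.2 ((one_lt_inv₀ (zero_lt_iff.2 hq0)).2 h1))

/-- **The hub over a subfield of `ℚ̄` stable under the decomposition group.** -/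
theorem lq_sub (A : ValuationSubring Kbar) (hq : q.Prime) (hA : A.LiesOverPrime q)
    (K₀ : IntermediateField ℚ Kbar)
    (hK : ∀ σ : Kbar ≃ₐ[ℚ] Kbar, σ ∈ A.decompositionSubgroup ℚ → ∀ x ∈ K₀, σ x ∈ K₀)
    [IsDiscreteValuationRing (A.comap (algebraMap K₀ Kbar))] {ϖ₀ : K₀}
    (h₀ : IsUnif (A.comap (algebraMap K₀ Kbar)) ϖ₀) (hc : M.Coprime q)
    (D : BaseData M q) (hD : BeInt D) :
    ∃ γ₀ : K₀ →+* K₀, IsFrobInv (A.comap (algebraMap K₀ Kbar)) q γ₀ ∧
      LQ (A.comap (algebraMap K₀ Kbar)) ϖ₀ q (al K₀ M q) (be K₀ M q) (ww K₀ hc) (gam K₀ γ₀ M)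
        (Og (A.comap (algebraMap K₀ Kbar)) M) (VV (A.comap (algebraMap K₀ Kbar)) hc)
        (D.xK K₀) := by
  obtain ⟨γ₀, hγ⟩ := exists_isFrobInv A hq hA K₀ hK
  have hqM : ¬ q ∣ M := fun h => hq.one_lt.ne' (Nat.Coprime.eq_one_of_dvd hc.symm h)
  exact ⟨γ₀, hγ, lq h₀ hq hqM (valuation_natCast_comap_lt_one A hA K₀) hc hγ D hD⟩

/-- **The hub over a normal extension of `ℚ`.** -/
theorem lq_normal (A : ValuationSubring Kbar) (hq : q.Prime) (hA : A.LiesOverPrime q)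
    (K₀ : IntermediateField ℚ Kbar) [Normal ℚ K₀]
    [IsDiscreteValuationRing (A.comap (algebraMap K₀ Kbar))] {ϖ₀ : K₀}
    (h₀ : IsUnif (A.comap (algebraMap K₀ Kbar)) ϖ₀) (hc : M.Coprime q)
    (D : BaseData M q) (hD : BeInt D) :
    ∃ γ₀ : K₀ →+* K₀, IsFrobInv (A.comap (algebraMap K₀ Kbar)) q γ₀ ∧
      LQ (A.comap (algebraMap K₀ Kbar)) ϖ₀ q (al K₀ M q) (be K₀ M q) (ww K₀ hc) (gam K₀ γ₀ M)
        (Og (A.comap (algebraMap K₀ Kbar)) M) (VV (A.comap (algebraMap K₀ Kbar)) hc)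
        (D.xK K₀) :=
  lq_sub A hq hA K₀ (frob_stable_of_normal A K₀) h₀ hc D hD

/-- **The hub over the inertia field**: the uniformiser is `q`. -/
theorem lq_inertia (A : ValuationSubring Kbar) (hq : q.Prime) (hA : A.LiesOverPrime q)
    [IsDiscreteValuationRing (A0 A)] (hc : M.Coprime q) (D : BaseData M q) (hD : BeInt D) :
    ∃ γ₀ : K0 A →+* K0 A, IsFrobInv (A0 A) q γ₀ ∧
      LQ (A0 A) (q : K0 A) q (al (K0 A) M q) (be (K0 A) M q) (ww (K0 A) hc) (gam (K0 A) γ₀ M)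
        (Og (A0 A) M) (VV (A0 A) hc) (D.xK (K0 A)) := by
  have : IsDiscreteValuationRing (A.comap (algebraMap (K0 A) Kbar)) :=
    (inferInstance : IsDiscreteValuationRing (A0 A))
  exact lq_sub A hq hA (K0 A) (frob_stable_K0 A) (Bridge.isUnif_A0 A q hq hA) hc D hD

/-- **The hub over the inertia field, with the good base chosen** (`j` for `q ≥ 5`, `h₂` for
`q = 3`, `2 ∣ M`, `h₃` for `q = 2`, `3 ∣ M`). -/
theorem exists_lq_inertia (A : ValuationSubring Kbar) (hq : q.Prime) (hA : A.LiesOverPrime q)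
    [IsDiscreteValuationRing (A0 A)] (hc : M.Coprime q)
    (h : 5 ≤ q ∨ (q = 3 ∧ 2 ∣ M) ∨ (q = 2 ∧ 3 ∣ M)) :
    ∃ (D : BaseData M q) (γ₀ : K0 A →+* K0 A),
      S34.Nodal.Inst.BaseOK M q (D.xK Kbar) ∧ BeInt D ∧ IsFrobInv (A0 A) q γ₀ ∧
      LQ (A0 A) (q : K0 A) q (al (K0 A) M q) (be (K0 A) M q) (ww (K0 A) hc) (gam (K0 A) γ₀ M)
        (Og (A0 A) M) (VV (A0 A) hc) (D.xK (K0 A)) := by
  obtain ⟨D, h1, h2⟩ := exists_good_base (M := M) hq h
  obtain ⟨γ₀, h3, h4⟩ := lq_inertia A hq hA hc D h2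
  exact ⟨D, γ₀, h1, h2, h3, h4⟩

end Fermat.Agent.BAD.LevelQ.Mod

end
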