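/-
Project BAD, block LevelQ, sub-block LQ-MOD, section Pole, complement (helper267):
`BeInt D` for the base coordinate `j`: `j(q z)` is integral over `ℚ̄[j(z)]` at level `M q`
(from `Lib.ModEq.isIntegral_JF`, which is the statement at level `q`, and the inclusion of levels).
-/
import Fermat.Agent.BAD.LevelQ.Mod.Pole
import Fermat.Agent.Lib.ModEq.Integral
import Fermat.Agent.GAL.KLLevel

set_option autoImplicit false

noncomputable section

namespace Fermat.Agent.BAD.LevelQ.Mod

open ModularCurve Fermat.Agent.S24 Fermat.Agent.S18 Fermat.Agent.S18.Vert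
  Fermat.Agent.S18.Descent Fermat.Agent.S36.Mod IntermediateField Polynomial

variable {M q : ℕ} [NeZero M] [NeZero q]

theorem levelIncl_jF_eq_al :
    GAL.levelIncl (dvd_mul_left q M) (jF q) = heckeAlphaBar Kbar M q (jF M) := by
  apply Subtype.ext
  rw [GAL.coe_levelIncl, coe_heckeAlphaBar]
  rfl

theorem levelIncl_JF_eq_be :
    GAL.levelIncl (dvd_mul_left q M) (JF q q dvd_rfl) = heckeBetaBar Kbar M q (jF M) := by
  apply Subtype.ext
  rw [GAL.coe_levelIncl, coe_heckeBetaBar]
  show Jser q = qExpand Kbar q (Jser 1)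
  rw [Jser, Jser, qExpand_one_apply, coeffEmb, coeffMap_qExpand]

/-- `j(q z)` is integral over `ℚ̄[j(z)]` at level `M q`. -/
theorem be_jF_mem_chart :
    heckeBetaBar Kbar M q (jF M) ∈ chart (⊤ : Subring Kbar) (heckeAlphaBar Kbar M q (jF M)) := by
  rw [descChart_mem_chart]
  have h := Lib.ModEq.isIntegral_JF q
  set ι : FN q →ₐ[Kbar] FN (M * q) := GAL.levelIncl (dvd_mul_left q M) with hι
  have hmem : ∀ y : Algebra.adjoin Kbar {jF q},
      ι (y : FN q) ∈ polyRing (⊤ : Subring Kbar) (heckeAlphaBar Kbar M q (jF M)) := by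
    rintro ⟨y, hy⟩
    rw [Algebra.adjoin_singleton_eq_range_aeval] at hy
    obtain ⟨p, rfl⟩ := hy
    refine descChart_mem_polyRing_top.2 ⟨p, ?_⟩
    show _ = ι (aeval (jF q) p)
    rw [← aeval_algHom_apply, hι, levelIncl_jF_eq_al]
  let φ : Algebra.adjoin Kbar {jF q} →+*
      polyRing (⊤ : Subring Kbar) (heckeAlphaBar Kbar M q (jF M)) :=
    (ι.toRingHom.comp (Algebra.adjoin Kbar {jF q}).val.toRingHom).codRestrict _ hmem
  have h2 := IsIntegral.map_of_comp_eq φ ι.toRingHom (by ext; rfl) h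
  have h3 : ι.toRingHom (JF q q dvd_rfl) = heckeBetaBar Kbar M q (jF M) := levelIncl_JF_eq_be
  rwa [h3] at h2

theorem beInt_j (D : BaseData M q) (hD : D.xK Kbar = jF M) : BeInt D := by
  unfold BeInt
  rw [hD]
  exact be_jF_mem_chart

end Fermat.Agent.BAD.LevelQ.Mod
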