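/-
Project BAD, block LevelQ (LQ-PT / PT-INST, helper21): the concrete instance of `CuspQ` at level `M q`
for the coordinate `j`: the modular equation (`BAD/Model/Phi/Export.lean`) + the hub `LQ`.
-/
import Fermat.Agent.BAD.LevelQ.Mod.Main
import Fermat.Agent.BAD.LevelQ.Pt.B.CuspOfRel
import Fermat.Agent.BAD.Model.Phi.Export

set_option autoImplicit false
set_option linter.unusedSectionVars false

noncomputable section

namespace Fermat.Agent.BAD.LevelQ.Mod

open ModularCurve Fermat.Agent.S24 Fermat.Agent.S18 Fermat.Agent.S18.Vert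
  Fermat.Agent.S18.Descent Fermat.Agent.S36.Mod Fermat.Agent.BAD.Model IntermediateField Polynomial

variable {K : Type*} [Field K] [Algebra ℚ K] {M q : ℕ} [NeZero M] [NeZero q]

theorem cuspq_coe_jK (N : ℕ) : ((jK K N : FK K N) : LaurentSeries K) = jqModC K := by
  show coeffEmb K jq = _
  rw [coeffEmb, ← jqModC_rat, coeffMap_jqModC]

/-- The modular equation between `1 / j(z)` and `1 / j(q z)` at level `M q`. -/
theorem exists_rel_j (hq : q.Prime) :
    ∃ c' : ℕ → ℕ → ℤ, c' 0 0 = -1 ∧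
      Rel q (fun a b => ((c' a b : ℤ) : K)) (al K M q (jK K M))⁻¹ (be K M q (jK K M))⁻¹ := by
  have : Fact q.Prime := ⟨hq⟩
  obtain ⟨c', h0, hrel⟩ := Phi.exists_rel q
  refine ⟨c', h0, (hrel K (FK K (M * q)) K (algebraMap (FK K (M * q)) (LaurentSeries K)) 1
    (al K M q (jK K M)) (be K M q (jK K M)) ?_ ?_).1⟩
  · show ((heckeAlphaBar K M q (jK K M) : FK K (M * q)) : LaurentSeries K) = _
    rw [coe_heckeAlphaBar, cuspq_coe_jK, qExpand_one_apply]
  · show ((heckeBetaBar K M q (jK K M) : FK K (M * q)) : LaurentSeries K) = _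
    rw [coe_heckeBetaBar, cuspq_coe_jK, qExpand_one_apply]

/-- **`CuspQ` for any hub `LQ` at level `M q` whose coordinate is `j`.** -/
theorem exists_cuspQ {A₀ : ValuationSubring K} {ϖ₀ : K} {w : FK K (M * q) ≃ₐ[K] FK K (M * q)}
    {γ : FK K M →+* FK K M} {Ow' : ValuationSubring (FK K M)}
    {V : Fin 2 → ValuationSubring (FK K (M * q))}
    (H : LQ A₀ ϖ₀ q (al K M q) (be K M q) w γ Ow' V (jK K M)) :
    ∃ c : ℕ → ℕ → K, CuspQ A₀ q V c (al K M q (jK K M))⁻¹ (be K M q (jK K M))⁻¹ := by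
  obtain ⟨c', h0, hrel⟩ := exists_rel_j (K := K) (M := M) H.prime
  refine ⟨fun a b => ((c' a b : ℤ) : K), H.cuspQ_of_rel (fun a b => intCast_mem A₀ _) ?_ hrel⟩
  show A₀.valuation ((c' 0 0 : ℤ) : K) = 1
  rw [h0]
  simp

end Fermat.Agent.BAD.LevelQ.Mod

end
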