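/-
Project BAD, block LevelQ, sub-block LQ-MOD, section Deg (owner of this file: helper247):
`[FK K (M q) : al (FK K M)] = q + 1` over an abstract field `K ⊆ ℚ̄`.
-/
import Fermat.Agent.BAD.LevelQ.Mod.Defs
import Fermat.Agent.S36.Mod.HalfInst.Degree
import Fermat.Agent.GAL.E.Degree

set_option autoImplicit false

noncomputable section

namespace Fermat.Agent.BAD.LevelQ.Mod

open ModularCurve Fermat.Agent.S24 Fermat.Agent.S18 Fermat.Agent.S18.Vert
  Fermat.Agent.S18.Descent Fermat.Agent.S36.Mod IntermediateField Polynomial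

variable {K : Type*} [Field K] [Algebra ℚ K] [Algebra K Kbar]
  {M q : ℕ} [NeZero M] [NeZero q]

/-! ### Deg : `[F : al F'] = q + 1` over `K` (file Mod/Deg.lean) -/
section Deg

theorem deg_dg_al :
    Fermat.Agent.S36.Norm.dg (al K M q).toRingHom =
      Fermat.Agent.S36.Norm.dg (heckeAlphaBar Kbar M q).toRingHom :=
  dg_alphaK K M q

theorem finite_al :
    letI := (al K M q).toRingHom.toAlgebra
    FiniteDimensional (FK K M) (FK K (M * q)) := by
  letI := (al K M q).toRingHom.toAlgebra
  apply Module.finite_of_finrank_pos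
  have h1 : Module.finrank (FK K M) (FK K (M * q)) =
      Fermat.Agent.S36.Norm.dg (heckeAlphaBar Kbar M q).toRingHom := deg_dg_al
  rw [h1]
  letI := Fermat.Agent.GAL.E.algAlpha M q
  have : Module.Finite (FN M) (FN (M * q)) := Fermat.Agent.GAL.E.finite_algAlpha M q
  exact Module.finrank_pos (R := FN M) (M := FN (M * q))

theorem finrank_al (hq : q.Prime) (hqM : ¬ q ∣ M) :
    letI := (al K M q).toRingHom.toAlgebra
    Module.finrank (FK K M) (FK K (M * q)) = q + 1 := by
  have h1 := deg_dg_al (K := K) (M := M) (q := q)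
  exact h1.trans (Fermat.Agent.GAL.E.finrank_algAlpha M q hq hqM)

end Deg

end Fermat.Agent.BAD.LevelQ.Mod
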