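/-
Project BAD, block LevelQ (LQ-PT / PT-INST, helper21): the concrete instance of `Eta` at level `M q`:
`x = G(τ) / G(q τ)` (`Lib/EtaUnit/FK/Pack.lean`), `y = q / x = ± w x`; both lie in the chart `ch₁`.
-/
import Fermat.Agent.BAD.LevelQ.Mod.Main
import Fermat.Agent.BAD.LevelQ.Pt.B.Defs
import Fermat.Agent.BAD.LevelQ.Hub.Basic
import Fermat.Agent.BAD.LevelQ.Hub.Sym
import Fermat.Agent.Lib.EtaUnit.FK.Pack

set_option autoImplicit false
set_option linter.unusedSectionVars false

noncomputable section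

namespace Fermat.Agent.BAD.LevelQ.Mod

open ModularCurve Fermat.Agent.S24 Fermat.Agent.S18 Fermat.Agent.S18.Vert
  Fermat.Agent.S18.Descent Fermat.Agent.S36.Mod Fermat.Agent.Lib.EtaUnit IntermediateField Polynomial

variable {K : Type*} [Field K] [Algebra ℚ K] [Algebra K Kbar]
  {A₀ : ValuationSubring K} [IsDiscreteValuationRing A₀]
  {M q : ℕ} [NeZero M] [NeZero q]

theorem eta_jK_eq_al : jK K (M * q) = al K M q (jK K M) :=
  Subtype.ext (coe_heckeAlphaBar M q (jK K M)).symm

section

variable (hq : q.Prime) (haux : if q = 2 then 9 ∣ M else 4 ∣ M) (hc : M.Coprime q)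
  {γ : FK K M →+* FK K M}
  (H : LQ A₀ (q : K) q (al K M q) (be K M q) (ww K hc) γ (Og A₀ M) (VV A₀ hc) (jK K M))

/-- the sign `ε = χ(q)` in the function field. -/
def epsF (K : Type*) [Field K] [Algebra ℚ K] (M q : ℕ) : FK K (M * q) := ((eps q : ℤ) : FK K (M * q))

include hq in
theorem epsF_mul_self : epsF K M q * epsF K M q = 1 := by
  unfold epsF
  rcases eps_eq hq with h | h <;> rw [h] <;> simp

include hq in
theorem val_epsF (W : ValuationSubring (FK K (M * q))) : W.valuation (epsF K M q) = 1 := by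
  unfold epsF
  rcases eps_eq hq with h | h <;> rw [h] <;> simp

theorem ww_etaK : ww K hc (etaK K q M hq haux) =
    epsF K M q * (q : FK K (M * q)) * (etaK K q M hq haux)⁻¹ := by
  have h := wAL_etaK K q M hq haux hc
  have e : algebraMap K (FK K (M * q)) (((eps q * q : ℤ) : K)) =
      epsF K M q * (q : FK K (M * q)) := by
    unfold epsF
    rw [Int.cast_mul, map_mul, map_intCast, Int.cast_natCast, map_natCast]
  rw [e] at h
  exact h

include H in
theorem eta_q_ne_zero : (q : FK K (M * q)) ≠ 0 := by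
  have := H.unif.ne_zero
  rwa [map_natCast] at this

include H in
theorem ww_q_div_etaK : ww K hc ((q : FK K (M * q)) / etaK K q M hq haux) =
    epsF K M q * etaK K q M hq haux := by
  have hx0 := etaK_ne_zero K q M hq haux
  have hq0 := eta_q_ne_zero hc H
  have he := epsF_mul_self (K := K) (M := M) hq
  have he0 : epsF K M q ≠ 0 := fun h => by rw [h, zero_mul] at he; exact zero_ne_one he
  rw [map_div₀, map_natCast, ww_etaK]
  field_simp
  linear_combination (-1 : FK K (M * q)) * he

include H in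
theorem val_etaK_zero : (VV A₀ hc 0).valuation (etaK K q M hq haux) = 1 :=
  valuation_etaK K q M hq haux (isGauss_Og H.vert'.unif₀ (M * q))

include H in
/-- **The eta units at level `M q`.** -/
theorem eta_etaK : Eta (q : FK K (M * q)) (VV A₀ hc) (etaK K q M hq haux)
    ((q : FK K (M * q)) / etaK K q M hq haux) where
  mul_eq := mul_div_cancel₀ _ (etaK_ne_zero K q M hq haux)
  x_unit := val_etaK_zero hq haux hc H
  y_unit := by
    rw [H.val_one_eq, ww_q_div_etaK hq haux hc H, map_mul, val_epsF hq, one_mul]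
    exact val_etaK_zero hq haux hc H

include H in
theorem eta_chart_top_le : ∀ z ∈ chart (⊤ : Subring K) (jK K (M * q)),
    z ∈ chart (⊤ : Subring K) (xx (al K M q) (be K M q) (jK K M)) := by
  rw [eta_jK_eq_al]
  exact fun z hz => chart_le_chart (chart_mono le_top _ (H.al_mem_ch₁ (self_mem_chart _))) hz

include H in
theorem etaK_mem_ch₁ : etaK K q M hq haux ∈ ch₁ A₀ (al K M q) (be K M q) (jK K M) := by
  rw [H.mem_ch₁_iff]
  refine ⟨?_, eta_chart_top_le hc H _ (etaK_mem_chart_top K q M hq haux)⟩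
  have h0 := val_etaK_zero hq haux hc H
  rw [Fin.forall_fin_two]
  refine ⟨((VV A₀ hc 0).valuation_le_one_iff _).1 h0.le, ?_⟩
  rw [H.V_one, ww_etaK, ← (VV A₀ hc 0).valuation_le_one_iff, map_mul, map_mul, val_epsF hq, one_mul,
    map_inv₀, h0, inv_one, mul_one, (VV A₀ hc 0).valuation_le_one_iff]
  exact natCast_mem _ q

include H in
theorem q_div_etaK_mem_ch₁ :
    (q : FK K (M * q)) / etaK K q M hq haux ∈ ch₁ A₀ (al K M q) (be K M q) (jK K M) := by
  rw [H.mem_ch₁_iff]
  have h0 := val_etaK_zero hq haux hc H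
  refine ⟨?_, ?_⟩
  · rw [Fin.forall_fin_two]
    refine ⟨?_, ?_⟩
    · rw [← (VV A₀ hc 0).valuation_le_one_iff, map_div₀, h0, div_one,
        (VV A₀ hc 0).valuation_le_one_iff]
      exact natCast_mem _ q
    · rw [H.V_one, ww_q_div_etaK hq haux hc H, ← (VV A₀ hc 0).valuation_le_one_iff, map_mul,
        val_epsF hq, one_mul, h0]
  · rw [div_eq_mul_inv]
    exact mul_mem (natCast_mem _ q)
      (eta_chart_top_le hc H _ (etaK_inv_mem_chart_top K q M hq haux))

end

end Fermat.Agent.BAD.LevelQ.Mod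

end
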