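/-
Project BAD, block LevelQ, sub-block LQ-GAL (owner helper39): automorphisms of the base field acting
on the coefficients.  Definitions (complete).
-/
import Fermat.Agent.BAD.LevelQ.Mod.Defs

set_option autoImplicit false

noncomputable section

namespace Fermat.Agent.BAD.LevelQ.Mod

open ModularCurve Fermat.Agent.S24 Fermat.Agent.S18 Fermat.Agent.S18.Descent Fermat.Agent.S36.Mod

variable {K : Type*} [Field K] [Algebra ℚ K]

theorem gam_gam (σ τ : K →+* K) (N : ℕ) (f : FK K N) :
    gam K σ N (gam K τ N f) = gam K (σ.comp τ) N f := by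
  apply Subtype.ext
  simp only [gam, coe_baseChangeMap]
  ext n
  rfl

theorem gam_id (N : ℕ) (f : FK K N) : gam K (RingHom.id K) N f = f := by
  apply Subtype.ext
  simp only [gam, coe_baseChangeMap]
  ext n
  rfl

/-- The automorphism of `FK K N` induced by an automorphism of `K` (acting on the coefficients). -/
def gal (τ : K ≃+* K) (N : ℕ) : FK K N ≃+* FK K N :=
  RingEquiv.ofRingHom (gam K (τ : K →+* K) N) (gam K (τ.symm : K →+* K) N)
    (RingHom.ext fun f => by
      rw [RingHom.comp_apply, gam_gam, RingHom.id_apply]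
      have : ((τ : K →+* K).comp (τ.symm : K →+* K)) = RingHom.id K := RingHom.ext fun a => by simp
      rw [this, gam_id])
    (RingHom.ext fun f => by
      rw [RingHom.comp_apply, gam_gam, RingHom.id_apply]
      have : ((τ.symm : K →+* K).comp (τ : K →+* K)) = RingHom.id K := RingHom.ext fun a => by simp
      rw [this, gam_id])

theorem gal_apply (τ : K ≃+* K) (N : ℕ) (f : FK K N) : gal τ N f = gam K (τ : K →+* K) N f := rfl

theorem coe_gal (τ : K ≃+* K) (N : ℕ) (f : FK K N) :
    ((gal τ N f : FK K N) : LaurentSeries K) = coeffMap (τ : K →+* K) (f : LaurentSeries K) := by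
  rw [gal_apply, gam, coe_baseChangeMap]

end Fermat.Agent.BAD.LevelQ.Mod
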