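/-
Project BAD, block LevelQ, sub-block LQ-GAL (owner helper39), section A (task LQG-A, helper252):
the coefficientwise action of the automorphisms of the base field commutes with `al`, `be`,
Atkin-Lehner, and fixes the functions with rational `q`-expansion.
-/
import Fermat.Agent.BAD.LevelQ.Mod.GalDefs
import Fermat.Agent.BAD.LevelQ.Mod.Pole

set_option autoImplicit false

noncomputable section

namespace Fermat.Agent.BAD.LevelQ.Mod

open ModularCurve Fermat.Agent.S24 Fermat.Agent.S18 Fermat.Agent.S18.Descent Fermat.Agent.S36.Mod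

variable {K : Type*} [Field K] [Algebra ℚ K]

/-! ### A : algebraic identities -/
section A

theorem gal_const (τ : K ≃+* K) (N : ℕ) (a : K) :
    gal τ N (algebraMap K (FK K N) a) = algebraMap K (FK K N) (τ a) :=
  baseChangeMap_algebraMap (τ : K →+* K) a

/-- functions with rational `q`-expansion are fixed -/
theorem gal_eq_self_of_rational (τ : K ≃+* K) (N : ℕ) (f : FK K N) (g : LaurentSeries ℚ)
    (hf : (f : LaurentSeries K) = coeffEmb K g) : gal τ N f = f := by
  apply Subtype.ext
  rw [coe_gal, hf, coeffMap_coeffEmb']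

theorem gal_JK (τ : K ≃+* K) (N d : ℕ) [NeZero d] (hd : d ∣ N) :
    gal τ N (JK K N d hd) = JK K N d hd :=
  gal_eq_self_of_rational τ N _ (qExpand ℚ d jq) rfl

theorem gal_xK (τ : K ≃+* K) {M ℓ : ℕ} (D : BaseData M ℓ) : gal τ M (D.xK K) = D.xK K :=
  Export.baseChangeMap_xK D (τ : K →+* K)

variable {M q : ℕ} [NeZero M] [NeZero q]

theorem gal_al (τ : K ≃+* K) (f : FK K M) :
    gal τ (M * q) (al K M q f) = al K M q (gal τ M f) :=
  baseChangeMap_al (τ : K →+* K) f

theorem gal_be (τ : K ≃+* K) (f : FK K M) :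
    gal τ (M * q) (be K M q f) = be K M q (gal τ M f) :=
  baseChangeMap_be (τ : K →+* K) f

theorem gal_ww [Algebra K Kbar] (τ : K ≃+* K) (hc : M.Coprime q) (y : FK K (M * q)) :
    gal τ (M * q) (ww K hc y) = ww K hc (gal τ (M * q) y) := by
  have hq0 : q ≠ 0 := NeZero.ne q
  have hM0 : M ≠ 0 := NeZero.ne M
  have key : ((gal τ (M * q) : FK K (M * q) →+* FK K (M * q))).comp
        ((ww K hc : FK K (M * q) →ₐ[K] FK K (M * q)) : FK K (M * q) →+* FK K (M * q)) =
      ((ww K hc : FK K (M * q) →ₐ[K] FK K (M * q)) : FK K (M * q) →+* FK K (M * q)).comp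
        (gal τ (M * q) : FK K (M * q) →+* FK K (M * q)) := by
    apply ringHom_ext_JK
    · intro c
      show gal τ (M * q) (ww K hc (algebraMap K _ c)) = ww K hc (gal τ (M * q) (algebraMap K _ c))
      rw [AlgEquiv.commutes, gal_const, AlgEquiv.commutes]
    · intro d _ hd
      show gal τ (M * q) (ww K hc (JK K (M * q) d hd)) = ww K hc (gal τ (M * q) (JK K (M * q) d hd))
      rw [gal_JK]
      obtain ⟨d0, e, e', rfl, hd0, he, he0, he'0⟩ := EmbK.exists_factor hq0 hd
      have : NeZero d0 := ⟨fun h => hM0 (by rw [h] at hd0; exact Nat.eq_zero_of_zero_dvd hd0)⟩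
      have : NeZero e := ⟨he0⟩
      have : NeZero e' := ⟨he'0⟩
      have h2 : d0 * e' ∣ M * q := Nat.mul_dvd_mul hd0 ⟨e, by rw [← he, mul_comm]⟩
      have hw : ww K hc (JK K (M * q) (d0 * e) hd) = JK K (M * q) (d0 * e') h2 :=
        wAL_JK K (M * q) M q rfl hc d0 e e' hd0 he hd h2
      rw [hw, gal_JK]
  exact congrArg (fun φ : FK K (M * q) →+* FK K (M * q) => φ y) key

theorem gal_xx (τ : K ≃+* K) {ℓ : ℕ} (D : BaseData M ℓ) :
    gal τ (M * q) (xx (al K M q) (be K M q) (D.xK K)) = xx (al K M q) (be K M q) (D.xK K) := by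
  rw [xx, map_mul, gal_al, gal_be, gal_xK]

end A

end Fermat.Agent.BAD.LevelQ.Mod
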