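/-
Project BAD, block LevelQ, sub-block LQ-GAL (owner helper39), section B: the coefficientwise Galois
action preserves the Gauss rings, the charts and the local rings; depth estimate.
Proofs: helper224.
-/
import Fermat.Agent.BAD.LevelQ.Mod.GalAlg
import Fermat.Agent.BAD.LevelQ.Mod.AL
import Fermat.Agent.BAD.LevelQ.Hub.Basic
import Fermat.Agent.S36.Mod.GaussEmb.Funct
import Fermat.Agent.S36.BP.Defs

set_option autoImplicit false

noncomputable section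

namespace Fermat.Agent.BAD.LevelQ.Mod

open ModularCurve Fermat.Agent.S24 Fermat.Agent.S18 Fermat.Agent.S18.Descent Fermat.Agent.S36.Mod
  Fermat.Agent.S36.BP Fermat.Agent.S18.Vert

/-! ### Generic algebra -/

theorem GalVal_alg1 {L : Type*} [Field L] {tF F Q tQ P tP c P' Q' : L} (hc : c ≠ 0)
    (h : F * Q = P) (ht : tF * tQ = tP) (hP : tP - P = c * P') (hQ : tQ - Q = c * Q') :
    (tF - F) / c * (Q * tQ) = P' * Q - P * Q' := by
  rw [div_mul_eq_mul_div, div_eq_iff hc]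
  linear_combination Q * ht - tQ * h + Q * hP - P * hQ

variable {K : Type*} [Field K] [Algebra ℚ K]

/-! ### B : valuations, charts, depth -/
section B

variable {A₀ : ValuationSubring K} [IsDiscreteValuationRing A₀] {ϖ₀ : K}

theorem GalVal_comap_gal {τ : K ≃+* K} (hτ : A₀.comap (τ : K →+* K) = A₀) (N : ℕ) :
    (Og A₀ N).comap (gal τ N : FK K N →+* FK K N) = Og A₀ N := by
  have h1 : ((stdEmb A₀ N).comp (gal τ N : FK K N →+* FK K N)).toHom =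
      ((stdEmb A₀ N).bc (τ : K →+* K) hτ).toHom := RingHom.ext fun f => coe_gal τ N f
  have h2 := IntEmb.val_congr h1
  rw [IntEmb.val_comp, IntEmb.val_bc] at h2
  exact h2

theorem gal_mem_Og {τ : K ≃+* K} (hτ : A₀.comap (τ : K →+* K) = A₀) (N : ℕ) (f : FK K N) :
    gal τ N f ∈ Og A₀ N ↔ f ∈ Og A₀ N := by
  conv_rhs => rw [← GalVal_comap_gal hτ N, ValuationSubring.mem_comap]
  rfl

theorem GalVal_map_mem {τ : K ≃+* K} (hτ : A₀.comap (τ : K →+* K) = A₀) {a : K} (ha : a ∈ A₀) :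
    τ a ∈ A₀ := by
  rw [← hτ, ValuationSubring.mem_comap] at ha
  exact ha

theorem gal_mem_chart {τ : K ≃+* K} (hτ : A₀.comap (τ : K →+* K) = A₀) {N : ℕ} {z y : FK K N}
    (hz : gal τ N z = z) (hy : y ∈ chart A₀.toSubring z) : gal τ N y ∈ chart A₀.toSubring z :=
  map_mem_chart_ringHom (gal τ N : FK K N →+* FK K N)
    (fun a ha => ⟨τ a, GalVal_map_mem hτ ha, gal_const τ N a⟩) hz hy

/-- `τ P - P` is divisible by `ϖ₀ ^ n`. -/
theorem GalVal_exists_div (h₀ : IsUnif A₀ ϖ₀) {τ : K ≃+* K} (n : ℕ)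
    (hn : ∀ a ∈ A₀, (τ a - a) / ϖ₀ ^ n ∈ A₀) (P : LaurentSeries A₀) :
    ∃ P' : LaurentSeries A₀, coeffMap (τ : K →+* K) (inc A₀ P) - inc A₀ P =
      algebraMap K (LaurentSeries K) (ϖ₀ ^ n) * inc A₀ P' := by
  have h0 : ϖ₀ ^ n ≠ 0 := pow_ne_zero _ h₀.ne_zero
  refine ⟨liftS A₀ (algebraMap K (LaurentSeries K) (ϖ₀ ^ n)⁻¹ *
    (coeffMap (τ : K →+* K) (inc A₀ P) - inc A₀ P)) (fun k => ?_), ?_⟩
  · rw [coeff_algebraMap_mul, HahnSeries.coeff_sub, coeffMap_coeff, inc_coeff]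
    have := hn (P.coeff k) (P.coeff k).2
    rwa [div_eq_inv_mul] at this
  · rw [inc_liftS, ← mul_assoc, ← map_mul, mul_inv_cancel₀ h0, map_one, one_mul]

/-- depth: if `τ ≡ id` modulo `ϖ₀ ^ n` on `A₀` then `τ ≡ id` modulo `ϖ₀ ^ n` on the Gauss ring -/
theorem gal_sub_mem_Og (h₀ : IsUnif A₀ ϖ₀) {τ : K ≃+* K} (hτ : A₀.comap (τ : K →+* K) = A₀) (n : ℕ)
    (hn : ∀ a ∈ A₀, (τ a - a) / ϖ₀ ^ n ∈ A₀) (N : ℕ) (f : FK K N) (hf : f ∈ Og A₀ N) :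
    (gal τ N f - f) / algebraMap K (FK K N) ϖ₀ ^ n ∈ Og A₀ N := by
  obtain ⟨P, Q, hQ, h⟩ := ((stdEmb A₀ N).mem_val_iff f).1 hf
  rw [stdEmb_toHom_apply] at h
  obtain ⟨tP, htP⟩ : ∃ tP : LaurentSeries A₀, coeffMap (τ : K →+* K) (inc A₀ P) = inc A₀ tP :=
    ⟨_, IntEmb.bc_inc (τ : K →+* K) hτ P⟩
  obtain ⟨tQ, htQ, hrQ⟩ : ∃ tQ : LaurentSeries A₀,
      coeffMap (τ : K →+* K) (inc A₀ Q) = inc A₀ tQ ∧
      red A₀ tQ = coeffMap (resFieldMap (τ : K →+* K) hτ) (red A₀ Q) :=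
    ⟨_, IntEmb.bc_inc (τ : K →+* K) hτ Q, IntEmb.bc_red (τ : K →+* K) hτ Q⟩
  obtain ⟨P', hP'⟩ := GalVal_exists_div h₀ n hn P
  obtain ⟨Q', hQ'⟩ := GalVal_exists_div h₀ n hn Q
  rw [htP] at hP'
  rw [htQ] at hQ'
  have ht : coeffMap (τ : K →+* K) (f : LaurentSeries K) * inc A₀ tQ = inc A₀ tP := by
    rw [← htQ, ← htP, ← map_mul, h]
  have hc : algebraMap K (LaurentSeries K) (ϖ₀ ^ n) ≠ 0 :=
    (map_ne_zero _).2 (pow_ne_zero _ h₀.ne_zero)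
  refine ((stdEmb A₀ N).mem_val_iff _).2 ⟨P' * Q - P * Q', Q * tQ, ?_, ?_⟩
  · rw [map_mul, hrQ]
    exact mul_ne_zero hQ ((map_ne_zero _).2 hQ)
  · have e1 : (stdEmb A₀ N).toHom ((gal τ N f - f) / algebraMap K (FK K N) ϖ₀ ^ n) =
        (coeffMap (τ : K →+* K) (f : LaurentSeries K) - (f : LaurentSeries K)) /
          algebraMap K (LaurentSeries K) (ϖ₀ ^ n) := by
      rw [map_div₀, map_sub, map_pow, stdEmb_toHom_apply, stdEmb_toHom_apply, stdEmb_toHom_apply,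
        coe_gal, map_pow]
      rfl
    rw [e1, map_mul, map_sub, map_mul, map_mul]
    exact GalVal_alg1 hc h ht hP' hQ'

variable {M q : ℕ} [NeZero M] [NeZero q] [Algebra K Kbar]

theorem GalVal_VV_zero (hc : M.Coprime q) : VV A₀ hc 0 = Og A₀ (M * q) := by
  simp only [VV, Matrix.cons_val_zero]

theorem gal_mem_VV {τ : K ≃+* K} (hτ : A₀.comap (τ : K →+* K) = A₀) (hc : M.Coprime q) (c : Fin 2)
    (y : FK K (M * q)) : gal τ (M * q) y ∈ VV A₀ hc c ↔ y ∈ VV A₀ hc c := by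
  have h0 : ∀ y : FK K (M * q), gal τ (M * q) y ∈ VV A₀ hc 0 ↔ y ∈ VV A₀ hc 0 := by
    intro y
    rw [GalVal_VV_zero]
    exact gal_mem_Og hτ _ y
  fin_cases c
  · exact h0 y
  · show gal τ (M * q) y ∈ VV A₀ hc 1 ↔ y ∈ VV A₀ hc 1
    rw [mem_VV_one, mem_VV_one, ← gal_ww]
    exact h0 _

theorem gal_val_lt_one {τ : K ≃+* K} (hτ : A₀.comap (τ : K →+* K) = A₀) (hc : M.Coprime q)
    (c : Fin 2) (y : FK K (M * q)) :
    (VV A₀ hc c).valuation (gal τ (M * q) y) < 1 ↔ (VV A₀ hc c).valuation y < 1 := by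
  rw [change_val_lt_one_iff, change_val_lt_one_iff, ← map_inv₀, gal_mem_VV hτ hc c,
    EmbeddingLike.map_eq_zero_iff]

theorem gal_sub_mem_VV (h₀ : IsUnif A₀ ϖ₀) {τ : K ≃+* K} (hτ : A₀.comap (τ : K →+* K) = A₀)
    (n : ℕ) (hn : ∀ a ∈ A₀, (τ a - a) / ϖ₀ ^ n ∈ A₀) (hc : M.Coprime q) (c : Fin 2)
    (y : FK K (M * q)) (hy : y ∈ VV A₀ hc c) :
    (gal τ (M * q) y - y) / algebraMap K (FK K (M * q)) ϖ₀ ^ n ∈ VV A₀ hc c := by
  have h0 : ∀ y : FK K (M * q), y ∈ VV A₀ hc 0 →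
      (gal τ (M * q) y - y) / algebraMap K (FK K (M * q)) ϖ₀ ^ n ∈ VV A₀ hc 0 := by
    intro y hy
    rw [GalVal_VV_zero] at hy ⊢
    exact gal_sub_mem_Og h₀ hτ n hn _ y hy
  fin_cases c
  · exact h0 y hy
  · have hy1 : y ∈ VV A₀ hc 1 := hy
    show (gal τ (M * q) y - y) / algebraMap K (FK K (M * q)) ϖ₀ ^ n ∈ VV A₀ hc 1
    rw [mem_VV_one] at hy1 ⊢
    rw [map_div₀, map_sub, map_pow, AlgEquiv.commutes, ← gal_ww]
    exact h0 _ hy1

/-- Abstract: an endomorphism preserving `B` and trivial modulo `𝔫` preserves the local ring. -/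
theorem map_mem_locSub {F : Type*} [Field F] (B : Subring F) (𝔫 : Ideal B) [𝔫.IsPrime]
    (g : F →+* F) (hB : ∀ b ∈ B, g b ∈ B)
    (h𝔫 : ∀ b : B, (⟨g b, hB b b.2⟩ : B) - b ∈ 𝔫) {r : F} (hr : r ∈ locSub B 𝔫) :
    g r ∈ locSub B 𝔫 := by
  obtain ⟨a, s, hs, e⟩ := hr
  refine ⟨⟨g a, hB a a.2⟩, ⟨g s, hB s s.2⟩, fun h => hs ?_, ?_⟩
  · have h1 := 𝔫.sub_mem h (h𝔫 s)
    rwa [sub_sub_cancel] at h1
  · show g r * g s = g a
    rw [← map_mul, e]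

end B

end Fermat.Agent.BAD.LevelQ.Mod
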