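/-
Project BAD, block LevelQ, sub-block LQ-MOD, section Ind (owner helper244):
`1, j(qz), …, j(qz)^(q-1)` are independent on `v_0` over `al F'`.
-/
import Fermat.Agent.BAD.LevelQ.Mod.Gauss
import Fermat.Agent.BAD.LevelQ.Mod.AL
import Fermat.Agent.BAD.LevelQ.Mod.Table
import Fermat.Agent.S36.Mod.ThetaField

set_option autoImplicit false

noncomputable section

namespace Fermat.Agent.BAD.LevelQ.Mod

open ModularCurve Fermat.Agent.S24 Fermat.Agent.S18 Fermat.Agent.S18.Vert
  Fermat.Agent.S18.Descent Fermat.Agent.S36.Mod IntermediateField Polynomial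

/-- `valuation < 1` for a comap. -/
theorem ind_valuation_comap_lt_one {F F' : Type*} [Field F] [Field F'] (V : ValuationSubring F)
    (f : F' →+* F) (x : F') : (V.comap f).valuation x < 1 ↔ V.valuation (f x) < 1 := by
  rw [← ValuationSubring.mem_nonunits_iff, ← ValuationSubring.mem_nonunits_iff,
    IntEmb.mem_nonunits_iff_aux, IntEmb.mem_nonunits_iff_aux, ValuationSubring.mem_comap, map_inv₀,
    map_eq_zero]

/-- the reduction of the expansion of `j`. -/
def indJ (k : Type*) [Field k] : LaurentSeries k :=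
  coeffMap (Int.castRingHom k)
    (qExpand ℤ 1 (HahnSeries.single (-1 : ℤ) 1 * HahnSeries.ofPowerSeries ℤ ℤ jNum))

theorem indJ_coeff (k : Type*) [Field k] (n : ℤ) :
    (indJ k).coeff n = if n + 1 < 0 then 0 else ((PowerSeries.coeff (n + 1).natAbs jNum : ℤ) : k) := by
  rw [indJ, coeffMap_coeff, qExpand_one_apply, HahnSeries.coeff_single_mul, one_mul,
    sub_neg_eq_add, PowerSeries.coeff_coe]
  split_ifs
  · rw [map_zero]
  · rfl

theorem indJ_coeff_neg_one (k : Type*) [Field k] : (indJ k).coeff (-1) = 1 := by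
  have h1 : PowerSeries.coeff 0 jNum = 1 := by
    rw [PowerSeries.coeff_zero_eq_constantCoeff_apply]
    exact constantCoeff_jNum
  rw [indJ_coeff]
  simp [h1]

theorem indJ_ne_zero (k : Type*) [Field k] : indJ k ≠ 0 := by
  intro h
  have h1 := indJ_coeff_neg_one k
  rw [h, HahnSeries.coeff_zero] at h1
  exact zero_ne_one h1

theorem indJ_order (k : Type*) [Field k] : (indJ k).order = -1 := by
  refine le_antisymm (HahnSeries.order_le_of_coeff_ne_zero ?_) ?_
  · rw [indJ_coeff_neg_one]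
    exact one_ne_zero
  · rw [HahnSeries.le_order_iff_forall (indJ_ne_zero k)]
    intro n hn
    rw [indJ_coeff, if_pos (by omega)]

section Aux

variable {K : Type*} [Field K] [Algebra ℚ K]

theorem ind_exists_inc (A₀ : ValuationSubring K) [IsDiscreteValuationRing A₀] (M : ℕ) :
    ∃ P : LaurentSeries A₀, (stdEmb A₀ M).toHom (jK K M) = inc A₀ P ∧
      red A₀ P = indJ (IsLocalRing.ResidueField A₀) := by
  obtain ⟨P, hP, hred⟩ := exists_inc_eq_Js A₀ 1
  refine ⟨P, ?_, hred⟩
  rw [hP, Js, qExpand_one_apply]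
  rfl

theorem ind_jK_mem (A₀ : ValuationSubring K) [IsDiscreteValuationRing A₀] (M : ℕ) :
    jK K M ∈ Og A₀ M := by
  obtain ⟨P, hP, -⟩ := ind_exists_inc A₀ M
  exact (stdEmb A₀ M).mem_val_of_eq_inc hP

theorem ind_res_jK (A₀ : ValuationSubring K) [IsDiscreteValuationRing A₀] (M : ℕ)
    (h : jK K M ∈ Og A₀ M) :
    (stdEmb A₀ M).res ⟨jK K M, h⟩ = indJ (IsLocalRing.ResidueField A₀) := by
  obtain ⟨P, hP, hred⟩ := ind_exists_inc A₀ M
  rw [← hred]
  exact (stdEmb A₀ M).res_of_eq_inc hP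

end Aux

variable {K : Type*} [Field K] [Algebra ℚ K] [Algebra K Kbar]
  {A₀ : ValuationSubring K} [IsDiscreteValuationRing A₀] {ϖ₀ : K}
  {M q : ℕ} [NeZero M] [NeZero q]

theorem ind_theta (hq : q.Prime) (hchar : A₀.valuation (q : K) < 1) (hc : M.Coprime q)
    (a : Fin q → FK K M) (ha : ∀ i, a i ∈ Og A₀ M)
    (h : (VV A₀ hc 1).valuation (∑ i, al K M q (a i) * be K M q (jK K M) ^ (i : ℕ)) < 1) :
    ∀ i, (Og A₀ M).valuation (a i) < 1 := by
  -- transport by `w`
  have h1 : (Og A₀ (M * q)).valuation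
      (∑ i, be K M q (a i) * al K M q (jK K M) ^ (i : ℕ)) < 1 := by
    have h2 : VV A₀ hc 1 = (Og A₀ (M * q)).comap (wHom K hc).toRingHom := rfl
    rw [h2, ind_valuation_comap_lt_one] at h
    have h3 : (wHom K hc).toRingHom (∑ i, al K M q (a i) * be K M q (jK K M) ^ (i : ℕ)) =
        ∑ i, be K M q (a i) * al K M q (jK K M) ^ (i : ℕ) := by
      rw [map_sum]
      refine Finset.sum_congr rfl fun i _ => ?_
      rw [map_mul, map_pow]
      have e1 : (wHom K hc).toRingHom (al K M q (a i)) = be K M q (a i) := ww_al hc (a i)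
      have e2 : (wHom K hc).toRingHom (be K M q (jK K M)) = al K M q (jK K M) :=
        ww_be hc (jK K M)
      rw [e1, e2]
    rwa [h3] at h
  have hj : jK K M ∈ Og A₀ M := ind_jK_mem A₀ M
  have hbe : ∀ i, be K M q (a i) ∈ Og A₀ (M * q) := fun i => (be_mem_iff _).2 (ha i)
  have halj : al K M q (jK K M) ∈ Og A₀ (M * q) := (al_mem_iff _).2 hj
  have hmem : ∑ i, be K M q (a i) * al K M q (jK K M) ^ (i : ℕ) ∈ Og A₀ (M * q) :=
    sum_mem fun i _ => mul_mem (hbe i) (pow_mem halj _)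
  rw [valuation_lt_one_iff_res _ _ hmem] at h1
  have h4 : (⟨∑ i, be K M q (a i) * al K M q (jK K M) ^ (i : ℕ), hmem⟩ :
        (stdEmb A₀ (M * q)).val) =
      ∑ i, (⟨be K M q (a i), hbe i⟩ : (stdEmb A₀ (M * q)).val) *
        (⟨al K M q (jK K M), halj⟩ : (stdEmb A₀ (M * q)).val) ^ (i : ℕ) := by
    apply Subtype.ext
    simp
  have h5 : ∑ i, qExpand _ q ((stdEmb A₀ M).res ⟨a i, ha i⟩) *
      indJ (IsLocalRing.ResidueField A₀) ^ (i : ℕ) = 0 := by
    rw [← h1]
    have h6 := congrArg (stdEmb A₀ (M * q)).res h4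
    refine Eq.trans ?_ h6.symm
    rw [map_sum]
    refine Finset.sum_congr rfl fun i _ => ?_
    rw [map_mul, map_pow]
    have e1 := res_be (q := q) (a i) (ha i) (hbe i)
    have e2 := res_al (q := q) (jK K M) hj halj
    rw [ind_res_jK] at e2
    rw [← e1, ← e2]
  have hcop : IsCoprime (indJ (IsLocalRing.ResidueField A₀)).order (q : ℤ) := by
    rw [indJ_order]
    exact (isCoprime_one_left).neg_left
  have h7 := indep_pow q (indJ_ne_zero _) hcop (fun i => (stdEmb A₀ M).res ⟨a i, ha i⟩) h5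
  intro i
  rw [valuation_lt_one_iff_res _ _ (ha i)]
  exact h7 i

end Fermat.Agent.BAD.LevelQ.Mod
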