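/-
Project BAD, block LevelQ, sub-block LQ-MOD (helper88): the concrete instance of the hub `LQ`
* over the inertia field `K0 A` of a valuation ring `A` of `ℚ̄` above `q` (uniformiser `q`),
* over a subfield `K₀` of `ℚ̄` stable under the decomposition group (e.g. normal over `ℚ`) on which
  `A` induces a discrete valuation ring.
No hypothesis is left except the base coordinate `D` with `BeInt D` (`Mod/PoleH.lean`:
`exists_good_base`).
-/
import Fermat.Agent.BAD.LevelQ.Mod.Main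
import Fermat.Agent.BAD.LevelQ.Mod.Frob
import Fermat.Agent.Lib.InertiaField.Unram

set_option autoImplicit false
set_option linter.unusedSectionVars false

noncomputable section

namespace Fermat.Agent.BAD.LevelQ.Mod

open ModularCurve Fermat.Agent.S24 Fermat.Agent.S18 Fermat.Agent.S18.Vert
  Fermat.Agent.S18.Descent Fermat.Agent.S36.Mod IntermediateField Polynomial

variable {M q : ℕ} [NeZero M] [NeZero q]

/-- abstract form: everything at once, from a Frobenius lift. -/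
theorem exists_LQ' {K : Type*} [Field K] [Algebra ℚ K] [Algebra K Kbar] {A₀ : ValuationSubring K}
    {ϖ₀ : K} (h₀ : IsUnif A₀ ϖ₀) (hq : q.Prime) (hqM : ¬ q ∣ M)
    (hchar : A₀.valuation (q : K) < 1) (hγ : ∃ γ₀ : K →+* K, IsFrobInv A₀ q γ₀)
    (D : BaseData M q) (hD : BeInt D) :
    ∃ (γ₀ : K →+* K) (w : FK K (M * q) ≃ₐ[K] FK K (M * q)) (Ow' : ValuationSubring (FK K M))
      (V : Fin 2 → ValuationSubring (FK K (M * q))), IsFrobInv A₀ q γ₀ ∧
      LQ A₀ ϖ₀ q (heckeAlphaBar K M q) (heckeBetaBar K M q) w (gam K γ₀ M) Ow' V (D.xK K) ∧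
      IsGauss A₀ ϖ₀ (FK K M) Ow' ∧ IsGauss A₀ ϖ₀ (FK K (M * q)) (V 0) := by
  obtain ⟨γ₀, hγ₀⟩ := hγ
  obtain ⟨w, Ow', V, h1, h2, h3⟩ := exists_LQ h₀ hq hqM hchar hγ₀ D hD
  exact ⟨γ₀, w, Ow', V, hγ₀, h1, h2, h3⟩

theorem valuation_natCast_lt_one_of_isUnif {K : Type*} [Field K] {A₀ : ValuationSubring K}
    {ϖ : K} (h : IsUnif A₀ ϖ) : A₀.valuation ϖ < 1 := Two.val_unif_lt_one h

/-- `q` is a uniformiser of the valuation ring of the inertia field. -/
theorem isUnif_A0 (A : ValuationSubring Kbar) (hq : q.Prime) (hA : A.LiesOverPrime q) :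
    IsUnif (Lib.InertiaField.A0 A) (q : Lib.InertiaField.K0 A) := by
  have := Lib.InertiaField.isDiscreteValuationRing_A0 A q hq hA
  have h := isUnif_of_irreducible (Lib.InertiaField.A0 A) (q : Lib.InertiaField.A0 A)
    (Lib.InertiaField.irreducible_natCast_A0 A q hq hA)
  simpa using h

/-- **The model of level `M q` over the ring of integers of the inertia field.** -/
theorem lq_K0 (A : ValuationSubring Kbar) (hq : q.Prime) (hA : A.LiesOverPrime q) (hqM : ¬ q ∣ M)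
    (D : BaseData M q) (hD : BeInt D) :
    ∃ (γ₀ : Lib.InertiaField.K0 A →+* Lib.InertiaField.K0 A)
      (w : FK (Lib.InertiaField.K0 A) (M * q) ≃ₐ[Lib.InertiaField.K0 A]
        FK (Lib.InertiaField.K0 A) (M * q))
      (Ow' : ValuationSubring (FK (Lib.InertiaField.K0 A) M))
      (V : Fin 2 → ValuationSubring (FK (Lib.InertiaField.K0 A) (M * q))),
      IsFrobInv (Lib.InertiaField.A0 A) q γ₀ ∧
      LQ (Lib.InertiaField.A0 A) (q : Lib.InertiaField.K0 A) q
        (heckeAlphaBar (Lib.InertiaField.K0 A) M q) (heckeBetaBar (Lib.InertiaField.K0 A) M q) w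
        (gam (Lib.InertiaField.K0 A) γ₀ M) Ow' V (D.xK (Lib.InertiaField.K0 A)) ∧
      IsGauss (Lib.InertiaField.A0 A) (q : Lib.InertiaField.K0 A)
        (FK (Lib.InertiaField.K0 A) M) Ow' ∧
      IsGauss (Lib.InertiaField.A0 A) (q : Lib.InertiaField.K0 A)
        (FK (Lib.InertiaField.K0 A) (M * q)) (V 0) :=
  exists_LQ' (isUnif_A0 A hq hA) hq hqM (Two.val_unif_lt_one (isUnif_A0 A hq hA))
    (exists_isFrobInv_K0 A hq hA) D hD

/-- **The model of level `M q` over a subfield of `ℚ̄` stable under the decomposition group.** -/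
theorem lq_of_stable (A : ValuationSubring Kbar) (hq : q.Prime) (hA : A.LiesOverPrime q)
    (hqM : ¬ q ∣ M) (K₀ : IntermediateField ℚ Kbar)
    (hK : ∀ σ : Kbar ≃ₐ[ℚ] Kbar, σ ∈ A.decompositionSubgroup ℚ → ∀ x ∈ K₀, σ x ∈ K₀)
    {ϖ₀ : K₀} (h₀ : IsUnif (A.comap (algebraMap K₀ Kbar)) ϖ₀)
    (D : BaseData M q) (hD : BeInt D) :
    ∃ (γ₀ : K₀ →+* K₀) (w : FK K₀ (M * q) ≃ₐ[K₀] FK K₀ (M * q))
      (Ow' : ValuationSubring (FK K₀ M)) (V : Fin 2 → ValuationSubring (FK K₀ (M * q))),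
      IsFrobInv (A.comap (algebraMap K₀ Kbar)) q γ₀ ∧
      LQ (A.comap (algebraMap K₀ Kbar)) ϖ₀ q (heckeAlphaBar K₀ M q) (heckeBetaBar K₀ M q) w
        (gam K₀ γ₀ M) Ow' V (D.xK K₀) ∧
      IsGauss (A.comap (algebraMap K₀ Kbar)) ϖ₀ (FK K₀ M) Ow' ∧
      IsGauss (A.comap (algebraMap K₀ Kbar)) ϖ₀ (FK K₀ (M * q)) (V 0) := by
  refine exists_LQ' h₀ hq hqM ?_ (exists_isFrobInv A hq hA K₀ hK) D hD
  have h1 : A.valuation (algebraMap K₀ Kbar (q : K₀)) < 1 := by
    rw [map_natCast]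
    exact (ValuationSubring.mem_nonunits_iff A).1 hA
  by_contra hcon
  have h2 : ((q : K₀))⁻¹ ∈ A.comap (algebraMap K₀ Kbar) := by
    rw [← ValuationSubring.valuation_le_one_iff, map_inv₀]
    exact inv_le_one_of_one_le₀ (not_lt.1 hcon)
  have h3 : (algebraMap K₀ Kbar (q : K₀))⁻¹ ∈ A := by
    rw [← map_inv₀]
    exact h2
  rw [← ValuationSubring.valuation_le_one_iff, map_inv₀] at h3
  have h0 : A.valuation (algebraMap K₀ Kbar (q : K₀)) ≠ 0 := by
    rw [map_natCast, Valuation.ne_zero_iff]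
    exact_mod_cast hq.ne_zero
  exact absurd h1 (not_lt.2 ((inv_le_one₀ (zero_lt_iff.2 h0)).1 h3))

end Fermat.Agent.BAD.LevelQ.Mod

end
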