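/-
Project BAD, block LevelQ (LQ-PT / PT-INST, helper21): THE CLOSED POINTS OF THE MODEL OF LEVEL `M q`,
`q ≥ 5`, `4 ∣ M`, `q ∤ M`, coordinate `j`, eta units `x = G₄(τ) / G₄(q τ)`, `y = q / x`,
over a discrete valuation ring `A₀` with uniformiser `q` and algebraically closed residue field,
and over the ring of integers `A0 A` of the inertia field.  No hypothesis is left.

* `lq_j`            : the hub `LQ` with coordinate `j`;
* `exists_point_j`  : export for `S44/X/PL`   (`PL.IsNode`, `PL.IsSmooth`);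
* `nodalModel_j`, `exists_point_depth_j` : export for `S44/Depth` (modulo the field `fin`).
-/
import Fermat.Agent.BAD.LevelQ.Mod.MainK0
import Fermat.Agent.BAD.LevelQ.Mod.PoleJ
import Fermat.Agent.BAD.LevelQ.Mod.CuspQ
import Fermat.Agent.BAD.LevelQ.Mod.Eta
import Fermat.Agent.BAD.LevelQ.Pt.B.ExportPL
import Fermat.Agent.BAD.LevelQ.Pt.B.ExportDepth
import Fermat.Agent.S34.Nodal.Inst.Base
import Fermat.Agent.Lib.InertiaField.Residue

set_option autoImplicit false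
set_option linter.unusedSectionVars false

noncomputable section

namespace Fermat.Agent.BAD.LevelQ.Mod

open ModularCurve Fermat.Agent.S24 Fermat.Agent.S18 Fermat.Agent.S18.Vert
  Fermat.Agent.S18.Descent Fermat.Agent.S36.Mod Fermat.Agent.S36.BP Fermat.Agent.Lib.EtaUnit
  Fermat.Agent.S44 IntermediateField Polynomial

variable {K : Type*} [Field K] [Algebra ℚ K] [Algebra K Kbar]
  {A₀ : ValuationSubring K} [IsDiscreteValuationRing A₀] {ϖ₀ : K}
  {M q : ℕ} [NeZero M] [NeZero q]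

/-- the base `j`, `q ≥ 5`. -/
theorem exists_base_j (hq : q.Prime) (h5 : 5 ≤ q) :
    ∃ D : BaseData M q, BeInt D ∧ ∀ (L : Type _) [Field L] [Algebra ℚ L], D.xK L = jK L M := by
  obtain ⟨D, hX, hD⟩ := S34.Nodal.Inst.Base.exists_baseData_j M q hq h5
  refine ⟨D, beInt_j D hD, fun L _ _ => Subtype.ext ?_⟩
  show coeffEmb L (coeffMap (Int.castRingHom ℚ) D.X) = coeffEmb L jq
  rw [hX, S18.Base.coeffMap_mkX_jNum]

/-- **The hub `LQ` with coordinate `j`** (`q ≥ 5`). -/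
theorem lq_j (h₀ : IsUnif A₀ ϖ₀) (hq : q.Prime) (h5 : 5 ≤ q) (hqM : ¬ q ∣ M)
    (hchar : A₀.valuation (q : K) < 1) (hc : M.Coprime q) {γ₀ : K →+* K}
    (hγ : IsFrobInv A₀ q γ₀) :
    LQ A₀ ϖ₀ q (al K M q) (be K M q) (ww K hc) (gam K γ₀ M) (Og A₀ M) (VV A₀ hc) (jK K M) := by
  obtain ⟨D, hD, hj⟩ := exists_base_j (M := M) hq h5
  have H := lq h₀ hq hqM hchar hc hγ D hD
  rwa [hj K] at H

theorem aux_of_four {q M : ℕ} (h5 : 5 ≤ q) (h4 : 4 ∣ M) : if q = 2 then 9 ∣ M else 4 ∣ M := by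
  rw [if_neg (by omega)]
  exact h4

section Points

variable (h₀ : IsUnif A₀ (q : K)) (hac : IsAlgClosed (IsLocalRing.ResidueField A₀))
  (hq : q.Prime) (h5 : 5 ≤ q) (hqM : ¬ q ∣ M) (h4 : 4 ∣ M) (hc : M.Coprime q)
  (hγ : ∃ γ₀ : K →+* K, IsFrobInv A₀ q γ₀)

include h₀ hac hqM hγ in
/-- **EXPORT for `S44/X/PL`.** -/
theorem exists_point_j (W : ValuationSubring (FK K (M * q)))
    (hA : ∀ a ∈ A₀, algebraMap K (FK K (M * q)) a ∈ W) (hle : W ≤ VV A₀ hc 0)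
    (hne : W ≠ VV A₀ hc 0) :
    ∃ R : Subring (FK K (M * q)), Dominates W R ∧
      (jK K (M * q) ∈ W →
        PL.IsNode A₀ q R (VV A₀ hc 0) (VV A₀ hc 1) (etaK K q M hq (aux_of_four h5 h4))
            ((q : FK K (M * q)) / etaK K q M hq (aux_of_four h5 h4)) ∨
          (PL.IsSmooth A₀ q R (VV A₀ hc 0) ∧ RUnit R (etaK K q M hq (aux_of_four h5 h4)))) ∧
      (jK K (M * q) ∉ W → PL.IsSmooth A₀ q R (VV A₀ hc 0)) := by
  haveI : CharZero K := algebraRat.charZero K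
  obtain ⟨γ₀, hγ₀⟩ := hγ
  have H := lq_j h₀ hq h5 hqM (Two.val_unif_lt_one h₀) hc hγ₀
  obtain ⟨c, C⟩ := exists_cuspQ H
  obtain ⟨R, -, hd, h1, h2⟩ := H.exists_point hac (eta_etaK hq (aux_of_four h5 h4) hc H)
    (etaK_mem_ch₁ hq _ hc H) (q_div_etaK_mem_ch₁ hq _ hc H) C W hA hle hne
  rw [← eta_jK_eq_al] at h1 h2
  exact ⟨R, hd, h1, h2⟩

include h₀ hac hqM hγ in
/-- **EXPORT for `S44/Depth`**: the nodal model at `e = 1`. -/
theorem nodalModel_j
    (hfin : ∀ R, IsModelPt A₀ (q : K) (xx (al K M q) (be K M q) (jK K M)) R → FinAt A₀ R) :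
    Depth.NodalModel A₀ (q : K) 1 (VV A₀ hc 0) (VV A₀ hc 1) (etaK K q M hq (aux_of_four h5 h4))
      ((q : FK K (M * q)) / etaK K q M hq (aux_of_four h5 h4))
      {R | Depth.IsSm A₀ (q : K) (VV A₀ hc 0) R} {R | Depth.IsSm A₀ (q : K) (VV A₀ hc 1) R}
      {R | Depth.IsNode A₀ (q : K) (VV A₀ hc 0) (VV A₀ hc 1) (etaK K q M hq (aux_of_four h5 h4))
        ((q : FK K (M * q)) / etaK K q M hq (aux_of_four h5 h4)) R} := by
  haveI : CharZero K := algebraRat.charZero K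
  obtain ⟨γ₀, hγ₀⟩ := hγ
  have H := lq_j h₀ hq h5 hqM (Two.val_unif_lt_one h₀) hc hγ₀
  obtain ⟨c, C⟩ := exists_cuspQ H
  have E : Eta (algebraMap K (FK K (M * q)) (q : K)) (VV A₀ hc) (etaK K q M hq (aux_of_four h5 h4))
      ((q : FK K (M * q)) / etaK K q M hq (aux_of_four h5 h4)) := by
    rw [map_natCast]
    exact eta_etaK hq (aux_of_four h5 h4) hc H
  exact H.nodalModel hac E (etaK_mem_ch₁ hq _ hc H) (q_div_etaK_mem_ch₁ hq _ hc H) C hfin

include h₀ hac hqM hγ in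
theorem exists_point_depth_j
    (hfin : ∀ R, IsModelPt A₀ (q : K) (xx (al K M q) (be K M q) (jK K M)) R → FinAt A₀ R)
    (W : ValuationSubring (FK K (M * q)))
    (hA : ∀ a ∈ A₀, algebraMap K (FK K (M * q)) a ∈ W) (hle : W ≤ VV A₀ hc 0)
    (hne : W ≠ VV A₀ hc 0) :
    ∃ R : Subring (FK K (M * q)), Dominates W R ∧
      (jK K (M * q) ∈ W →
        Depth.IsNode A₀ (q : K) (VV A₀ hc 0) (VV A₀ hc 1) (etaK K q M hq (aux_of_four h5 h4))
            ((q : FK K (M * q)) / etaK K q M hq (aux_of_four h5 h4)) R ∨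
          (Depth.IsSm A₀ (q : K) (VV A₀ hc 0) R ∧ RUnit R (etaK K q M hq (aux_of_four h5 h4)))) ∧
      (jK K (M * q) ∉ W → Depth.IsSm A₀ (q : K) (VV A₀ hc 0) R) := by
  haveI : CharZero K := algebraRat.charZero K
  obtain ⟨γ₀, hγ₀⟩ := hγ
  have H := lq_j h₀ hq h5 hqM (Two.val_unif_lt_one h₀) hc hγ₀
  obtain ⟨c, C⟩ := exists_cuspQ H
  have E : Eta (algebraMap K (FK K (M * q)) (q : K)) (VV A₀ hc) (etaK K q M hq (aux_of_four h5 h4))
      ((q : FK K (M * q)) / etaK K q M hq (aux_of_four h5 h4)) := by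
    rw [map_natCast]
    exact eta_etaK hq (aux_of_four h5 h4) hc H
  obtain ⟨R, -, hd, h1, h2⟩ := H.exists_point_depth hac E
    (etaK_mem_ch₁ hq _ hc H) (q_div_etaK_mem_ch₁ hq _ hc H) C hfin W hA hle hne
  rw [← eta_jK_eq_al] at h1 h2
  exact ⟨R, hd, h1, h2⟩

end Points

end Fermat.Agent.BAD.LevelQ.Mod

end
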