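/-
Project BAD, block LevelQ (LQ-PT / PT-INST, helper21): the closed points of the model of level `M q`
over the ring of integers `A0 A` of the inertia field `K0 A` (`q ≥ 5`, `4 ∣ M`, `q ∤ M`).
UNCONDITIONAL.  This is (M3) of S44 X3-MODEL, in terms of composite valuation rings `W ⊊ V 0`.
-/
import Fermat.Agent.BAD.LevelQ.Mod.Points

set_option autoImplicit false
set_option linter.unusedSectionVars false

noncomputable section

namespace Fermat.Agent.BAD.LevelQ.Mod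

open ModularCurve Fermat.Agent.S24 Fermat.Agent.S18 Fermat.Agent.S18.Vert
  Fermat.Agent.S18.Descent Fermat.Agent.S36.Mod Fermat.Agent.S36.BP Fermat.Agent.Lib.EtaUnit
  Fermat.Agent.S44 Fermat.Agent.Lib.InertiaField IntermediateField Polynomial

variable {M q : ℕ} [NeZero M] [NeZero q]

/-- **EXPORT for `S44/X/PL` over the inertia field.**  `Va = VV (A0 A) hc 0 = Og (A0 A) (M * q)` is the
Gauss valuation ring, `Vb = VV (A0 A) hc 1 = Va.comap w_q`, `x = etaK = G₄(τ) / G₄(q τ)`. -/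
theorem exists_point_K0 (A : ValuationSubring Kbar) (hq : q.Prime) (hA : A.LiesOverPrime q)
    (h5 : 5 ≤ q) (hqM : ¬ q ∣ M) (h4 : 4 ∣ M) (hc : M.Coprime q)
    [IsDiscreteValuationRing (A0 A)]
    (W : ValuationSubring (FK (K0 A) (M * q)))
    (hW : ∀ a ∈ A0 A, algebraMap (K0 A) (FK (K0 A) (M * q)) a ∈ W) (hle : W ≤ VV (A0 A) hc 0)
    (hne : W ≠ VV (A0 A) hc 0) :
    ∃ R : Subring (FK (K0 A) (M * q)), Dominates W R ∧
      (jK (K0 A) (M * q) ∈ W →
        PL.IsNode (A0 A) q R (VV (A0 A) hc 0) (VV (A0 A) hc 1)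
            (etaK (K0 A) q M hq (aux_of_four h5 h4))
            ((q : FK (K0 A) (M * q)) / etaK (K0 A) q M hq (aux_of_four h5 h4)) ∨
          (PL.IsSmooth (A0 A) q R (VV (A0 A) hc 0) ∧
            RUnit R (etaK (K0 A) q M hq (aux_of_four h5 h4)))) ∧
      (jK (K0 A) (M * q) ∉ W → PL.IsSmooth (A0 A) q R (VV (A0 A) hc 0)) :=
  exists_point_j (isUnif_A0 A hq hA) (isAlgClosed_residueField_A0 A q hq hA) hq h5 hqM h4 hc
    (exists_isFrobInv_K0 A hq hA) W hW hle hne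

/-- **EXPORT for `S44/Depth` over the inertia field** (modulo the field `fin`). -/
theorem nodalModel_K0 (A : ValuationSubring Kbar) (hq : q.Prime) (hA : A.LiesOverPrime q)
    (h5 : 5 ≤ q) (hqM : ¬ q ∣ M) (h4 : 4 ∣ M) (hc : M.Coprime q)
    [IsDiscreteValuationRing (A0 A)]
    (hfin : ∀ R, IsModelPt (A0 A) (q : K0 A)
      (xx (al (K0 A) M q) (be (K0 A) M q) (jK (K0 A) M)) R → FinAt (A0 A) R) :
    Depth.NodalModel (A0 A) (q : K0 A) 1 (VV (A0 A) hc 0) (VV (A0 A) hc 1)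
      (etaK (K0 A) q M hq (aux_of_four h5 h4))
      ((q : FK (K0 A) (M * q)) / etaK (K0 A) q M hq (aux_of_four h5 h4))
      {R | Depth.IsSm (A0 A) (q : K0 A) (VV (A0 A) hc 0) R}
      {R | Depth.IsSm (A0 A) (q : K0 A) (VV (A0 A) hc 1) R}
      {R | Depth.IsNode (A0 A) (q : K0 A) (VV (A0 A) hc 0) (VV (A0 A) hc 1)
        (etaK (K0 A) q M hq (aux_of_four h5 h4))
        ((q : FK (K0 A) (M * q)) / etaK (K0 A) q M hq (aux_of_four h5 h4)) R} :=
  nodalModel_j (isUnif_A0 A hq hA) (isAlgClosed_residueField_A0 A q hq hA) hq h5 hqM h4 hc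
    (exists_isFrobInv_K0 A hq hA) hfin

theorem exists_point_depth_K0 (A : ValuationSubring Kbar) (hq : q.Prime) (hA : A.LiesOverPrime q)
    (h5 : 5 ≤ q) (hqM : ¬ q ∣ M) (h4 : 4 ∣ M) (hc : M.Coprime q)
    [IsDiscreteValuationRing (A0 A)]
    (hfin : ∀ R, IsModelPt (A0 A) (q : K0 A)
      (xx (al (K0 A) M q) (be (K0 A) M q) (jK (K0 A) M)) R → FinAt (A0 A) R)
    (W : ValuationSubring (FK (K0 A) (M * q)))
    (hW : ∀ a ∈ A0 A, algebraMap (K0 A) (FK (K0 A) (M * q)) a ∈ W) (hle : W ≤ VV (A0 A) hc 0)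
    (hne : W ≠ VV (A0 A) hc 0) :
    ∃ R : Subring (FK (K0 A) (M * q)), Dominates W R ∧
      (jK (K0 A) (M * q) ∈ W →
        Depth.IsNode (A0 A) (q : K0 A) (VV (A0 A) hc 0) (VV (A0 A) hc 1)
            (etaK (K0 A) q M hq (aux_of_four h5 h4))
            ((q : FK (K0 A) (M * q)) / etaK (K0 A) q M hq (aux_of_four h5 h4)) R ∨
          (Depth.IsSm (A0 A) (q : K0 A) (VV (A0 A) hc 0) R ∧
            RUnit R (etaK (K0 A) q M hq (aux_of_four h5 h4)))) ∧
      (jK (K0 A) (M * q) ∉ W → Depth.IsSm (A0 A) (q : K0 A) (VV (A0 A) hc 0) R) :=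
  exists_point_depth_j (isUnif_A0 A hq hA) (isAlgClosed_residueField_A0 A q hq hA) hq h5 hqM h4 hc
    (exists_isFrobInv_K0 A hq hA) hfin W hW hle hne

end Fermat.Agent.BAD.LevelQ.Mod

end
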