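/-
Project BAD, block LevelQ, sub-block LQ-MOD, section Sep (helper88): `v_∞ ≠ v_0`, uniformisers.
No Frobenius lift is needed.
-/
import Fermat.Agent.BAD.LevelQ.Mod.Kron
import Fermat.Agent.BAD.LevelQ.Mod.AL

set_option autoImplicit false
set_option linter.unusedSectionVars false

noncomputable section

namespace Fermat.Agent.BAD.LevelQ.Mod

open ModularCurve Fermat.Agent.S24 Fermat.Agent.S18 Fermat.Agent.S18.Vert
  Fermat.Agent.S18.Descent Fermat.Agent.S36.Mod

section Abs

variable {F : Type*} [Field F]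

/-- abstract form: two valuation rings exchanged by an involution `w`, an element `a` which is a
non-unit of `V 0` and such that `w a` is a unit of `V 0`. -/
theorem sep_data_of_invol {V : Fin 2 → ValuationSubring F} (w : F ≃+* F) (hww : ∀ y, w (w y) = y)
    (V_one : ∀ y, y ∈ V 1 ↔ w y ∈ V 0) {a : F} (ha : (V 0).valuation a < 1)
    (hb : (V 0).valuation (w a) = 1) :
    (V 1).valuation a = 1 ∧ (V 1).valuation (w a) < 1 := by
  have htr := Kron.val_lt_one_transport (V := V 0) (V' := V 1) w V_one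
  have hb1 : (V 1).valuation (w a) < 1 := by
    rw [htr, hww]
    exact ha
  have ha1m : a ∈ V 1 := by
    rw [V_one, ← ValuationSubring.valuation_le_one_iff]
    exact hb.le
  refine ⟨le_antisymm ((ValuationSubring.valuation_le_one_iff _ _).mpr ha1m) (not_lt.mp ?_), hb1⟩
  rw [htr, hb]
  exact lt_irrefl _

theorem isSep_of_invol {V : Fin 2 → ValuationSubring F} (w : F ≃+* F) (hww : ∀ y, w (w y) = y)
    (V_one : ∀ y, y ∈ V 1 ↔ w y ∈ V 0) {a : F} (ha : (V 0).valuation a < 1)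
    (hb : (V 0).valuation (w a) = 1) : IsSep V := by
  obtain ⟨ha1, hb1⟩ := sep_data_of_invol w hww V_one ha hb
  have hmem : ∀ (W : ValuationSubring F) (z : F), W.valuation z ≤ 1 → z ∈ W :=
    fun W z h => (W.valuation_le_one_iff z).mp h
  intro c c' hcc
  have hc : (c = 0 ∧ c' = 1) ∨ (c = 1 ∧ c' = 0) := by omega
  rcases hc with ⟨rfl, rfl⟩ | ⟨rfl, rfl⟩
  · refine ⟨w a, fun d => ?_, hb, hb1⟩
    have hd : d = 0 ∨ d = 1 := by omega
    rcases hd with rfl | rfl
    · exact hmem _ _ hb.le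
    · exact hmem _ _ hb1.le
  · refine ⟨a, fun d => ?_, ha1, ha⟩
    have hd : d = 0 ∨ d = 1 := by omega
    rcases hd with rfl | rfl
    · exact hmem _ _ ha.le
    · exact hmem _ _ ha1.le

theorem exists_idem_of_invol {V : Fin 2 → ValuationSubring F} (w : F ≃+* F)
    (hww : ∀ y, w (w y) = y) (V_one : ∀ y, y ∈ V 1 ↔ w y ∈ V 0) {a : F}
    (ha : (V 0).valuation a < 1) (hb : (V 0).valuation (w a) = 1) :
    ∃ e : F, (V 0).valuation (e - 1) < 1 ∧ (V 1).valuation e < 1 := by
  obtain ⟨ha1, hb1⟩ := sep_data_of_invol w hww V_one ha hb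
  have hs0 : (V 0).valuation (a + w a) = 1 := by
    rw [Valuation.map_add_eq_of_lt_right _ (by rw [hb]; exact ha), hb]
  have hs1 : (V 1).valuation (a + w a) = 1 := by
    rw [Valuation.map_add_eq_of_lt_left _ (by rw [ha1]; exact hb1), ha1]
  have hne : a + w a ≠ 0 := by
    intro h
    rw [h, map_zero] at hs0
    exact zero_ne_one hs0
  refine ⟨w a / (a + w a), ?_, ?_⟩
  · have e : w a / (a + w a) - 1 = -a / (a + w a) := by
      field_simp
      ring
    rw [e, map_div₀, hs0, div_one, Valuation.map_neg]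
    exact ha
  · rw [map_div₀, hs1, div_one]
    exact hb1

theorem isUnif_comap_equiv {W : ValuationSubring F} {ϖ : F} (h : IsUnif W ϖ) (w : F ≃+* F)
    (hϖ : w ϖ = ϖ) {W' : ValuationSubring F} (hW' : ∀ y, y ∈ W' ↔ w y ∈ W) : IsUnif W' ϖ where
  mem := by rw [hW', hϖ]; exact h.mem
  inv_notMem := by rw [hW', map_inv₀, hϖ]; exact h.inv_notMem
  exists_zpow y hy := by
    obtain ⟨n, h1, h2⟩ := h.exists_zpow (w y) ((map_ne_zero_iff w w.injective).mpr hy)
    refine ⟨n, ?_, ?_⟩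
    · rw [hW', map_div₀, map_zpow₀, hϖ]; exact h1
    · rw [hW', map_inv₀, map_div₀, map_zpow₀, hϖ]; exact h2

end Abs

variable {K : Type*} [Field K] [Algebra ℚ K] [Algebra K Kbar]
  {A₀ : ValuationSubring K} [IsDiscreteValuationRing A₀] {ϖ₀ : K}
  {M q : ℕ} [NeZero M] [NeZero q]

theorem VV_zero_eq (hc : M.Coprime q) : VV A₀ hc 0 = Og A₀ (M * q) := rfl

theorem ww_aK (hc : M.Coprime q) :
    ww K hc (be K M q (jK K M) - al K M q (jK K M) ^ q) =
      al K M q (jK K M) - be K M q (jK K M) ^ q := by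
  rw [map_sub, map_pow, ww_be, ww_al]

theorem isSep_VV (hq : q.Prime) (hchar : A₀.valuation (q : K) < 1) (hc : M.Coprime q) :
    IsSep (VV A₀ hc) :=
  isSep_of_invol (ww K hc).toRingEquiv (ww_ww hc) (mem_VV_one hc)
    (a := be K M q (jK K M) - al K M q (jK K M) ^ q) (kron_j hq hchar)
    ((congrArg _ (ww_aK hc)).trans (unit_j hq hchar))

theorem exists_idem (hq : q.Prime) (hchar : A₀.valuation (q : K) < 1) (hc : M.Coprime q) :
    ∃ e : FK K (M * q), (VV A₀ hc 0).valuation (e - 1) < 1 ∧ (VV A₀ hc 1).valuation e < 1 :=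
  exists_idem_of_invol (ww K hc).toRingEquiv (ww_ww hc) (mem_VV_one hc)
    (a := be K M q (jK K M) - al K M q (jK K M) ^ q) (kron_j hq hchar)
    ((congrArg _ (ww_aK hc)).trans (unit_j hq hchar))

theorem isUnif_VV (h₀ : IsUnif A₀ ϖ₀) (hc : M.Coprime q) (c : Fin 2) :
    IsUnif (VV A₀ hc c) (algebraMap K (FK K (M * q)) ϖ₀) := by
  have h0 : IsUnif (VV A₀ hc 0) (algebraMap K (FK K (M * q)) ϖ₀) := (isGauss_Og h₀ (M * q)).unif
  have hd : c = 0 ∨ c = 1 := by omega
  rcases hd with rfl | rfl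
  · exact h0
  · exact isUnif_comap_equiv h0 (ww K hc).toRingEquiv ((ww K hc).commutes ϖ₀) (mem_VV_one hc)

end Fermat.Agent.BAD.LevelQ.Mod

end
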