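/-
Project BAD, block LevelQ, sub-block LQ-MOD, section Setup, part 1 (helper217):
the uniformiser of `S.B` and the `IsGauss` bridge in the language of `S36/Mod/Setup.lean`.
-/
import Fermat.Agent.BAD.LevelQ.Mod.Gauss
import Fermat.Agent.S18.Descent.DVRUnif
import Fermat.Agent.S36.Mod.Setup

set_option autoImplicit false

noncomputable section

namespace Fermat.Agent.S36.Mod.Setup

open ModularCurve Fermat.Agent.S24 Fermat.Agent.S18 IntermediateField

variable {K K' : Type*} [Field K] [Field K'] [Algebra ℚ K] [Algebra ℚ K'] [Algebra K Kbar]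
  [Algebra K' Kbar] (S : Setup K K')

theorem isUnif_B : IsUnif S.B ((S.q : ℕ) : K) := by
  have h := Fermat.Agent.S18.isUnif_of_irreducible S.B ((S.q : ℕ) : S.B) S.unif
  have h2 : ((((S.q : ℕ) : S.B) : S.B) : K) = ((S.q : ℕ) : K) := by
    push_cast
    rfl
  rwa [h2] at h

theorem isGauss_V0 : IsGauss S.B ((S.q : ℕ) : K) (FK K S.N0) S.V0 :=
  Fermat.Agent.BAD.LevelQ.Mod.isGauss_Og S.isUnif_B S.N0

theorem isGauss_V1oo : IsGauss S.B ((S.q : ℕ) : K) (FK K (S.N0 * S.q)) S.V1oo :=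
  Fermat.Agent.BAD.LevelQ.Mod.isGauss_Og S.isUnif_B (S.N0 * S.q)

end Fermat.Agent.S36.Mod.Setup
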