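/-
Project BAD, block LevelQ, sub-block LQ-MOD, section Setup, part 2 (helper217):
COMPLETE1 and DENSE1 in the language of `S36/Mod/Setup.lean`.
(Part 1, `isUnif_B`, `isGauss_V0`, `isGauss_V1oo`: `Mod/SetupGauss.lean`, imported here.)
-/
import Fermat.Agent.BAD.LevelQ.Mod.SetupGauss
import Fermat.Agent.BAD.LevelQ.Mod.Complete.Main
import Fermat.Agent.BAD.LevelQ.Abs.Change
import Fermat.Agent.S36.Mod.Rel
import Fermat.Agent.S36.Mod.Table
import Fermat.Agent.S36.Mod.HalfInst.Insep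

set_option autoImplicit false

noncomputable section

namespace Fermat.Agent.BAD.LevelQ

open Polynomial Fermat.Agent.S18 Two

section Abstract

variable {E F : Type*} [Field E] [Field F] [Algebra E F]
  {R : ValuationSubring E} {ϖ : E} {V₁ V₂ : ValuationSubring F} {d : ℕ} {e θ : F}

/-- a valuation ring between a discrete valuation ring and the field, in which the uniformiser is
not invertible, is the discrete valuation ring. -/
theorem setup_eq_of_le {V W : ValuationSubring F} {π : F} (hV : IsUnif V π) (hle : ∀ y ∈ V, y ∈ W)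
    (hπ : π⁻¹ ∉ W) : W = V := by
  ext y
  refine ⟨fun hy => ?_, hle y⟩
  by_contra hyV
  have hy0 : y ≠ 0 := by
    rintro rfl
    exact hyV V.zero_mem
  have h1 : V.valuation y⁻¹ < 1 := by
    have h2 : ¬ V.valuation y ≤ 1 := fun h => hyV ((V.valuation_le_one_iff y).1 h)
    rw [not_le] at h2
    rw [map_inv₀]
    exact inv_lt_one_of_one_lt₀ h2
  have h3 : y⁻¹ / π ∈ W := hle _ ((lt_one_iff_div_mem hV _).1 h1)
  have h4 : π⁻¹ = y * (y⁻¹ / π) := by
    field_simp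
  exact hπ (h4 ▸ W.mul_mem _ _ hy h3)

/-- completeness in the form "a valuation ring above `R` is `V₁` or `V₂`". -/
theorem TwoHyp.eq_or_eq_of_comap (H : TwoHyp R ϖ V₁ V₂ d e θ) (W : ValuationSubring F)
    (hW : W.comap (algebraMap E F) = R) : W = V₁ ∨ W = V₂ := by
  have hRW : ∀ r, r ∈ R ↔ algebraMap E F r ∈ W := fun r => by
    rw [← hW]
    exact ValuationSubring.mem_comap
  have hint : ∀ y, y ∈ V₁ → y ∈ V₂ → y ∈ W := by
    intro y h1 h2
    obtain ⟨p, hp, hc, h0⟩ := H.integral y h1 h2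
    exact change_mem_of_monic W p hp (fun i => (hRW _).1 (hc i)) h0
  have hπ : (algebraMap E F ϖ)⁻¹ ∉ W := by
    rw [← map_inv₀, ← hRW]
    exact H.unif.inv_notMem
  have heW : e ∈ W := hint e H.e_mem₁ H.e_mem₂
  have he2 : (1 - e) ∈ V₂ := V₂.sub_mem V₂.one_mem H.e_mem₂
  have he1 : (1 - e) ∈ V₁ := V₁.sub_mem V₁.one_mem H.e_mem₁
  have h1eW : (1 - e) ∈ W := hint _ he1 he2
  -- `e` or `1 - e` is a unit of `W`
  have hunit : e⁻¹ ∈ W ∨ (1 - e)⁻¹ ∈ W := by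
    by_contra hcon
    rw [not_or] at hcon
    obtain ⟨hc1, hc2⟩ := hcon
    have k1 : W.valuation e < 1 := by
      rcases eq_or_ne e 0 with h0 | h0
      · rw [h0, map_zero]; exact zero_lt_one
      have : ¬ W.valuation e⁻¹ ≤ 1 := fun h => hc1 ((W.valuation_le_one_iff _).1 h)
      rw [not_le, map_inv₀] at this
      exact (one_lt_inv₀ (zero_lt_iff.mpr ((_root_.map_ne_zero _).mpr h0))).mp this
    have k2 : W.valuation (1 - e) < 1 := by
      rcases eq_or_ne (1 - e) 0 with h0 | h0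
      · rw [h0, map_zero]; exact zero_lt_one
      have : ¬ W.valuation (1 - e)⁻¹ ≤ 1 := fun h => hc2 ((W.valuation_le_one_iff _).1 h)
      rw [not_le, map_inv₀] at this
      exact (one_lt_inv₀ (zero_lt_iff.mpr ((_root_.map_ne_zero _).mpr h0))).mp this
    have k3 := lt_one_add k1 k2
    rw [add_sub_cancel, map_one] at k3
    exact lt_irrefl _ k3
  rcases hunit with hu | hu
  · left
    refine setup_eq_of_le H.unif₁ (fun y hy => ?_) hπ
    obtain ⟨r, hr⟩ := exists_mul_pow_mem H.unif₂ H.e₂ y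
    have h5 : y * e ^ r ∈ W := hint _ (V₁.mul_mem _ _ hy (V₁.pow_mem H.e_mem₁ r)) hr
    have he0 : e ≠ 0 := by
      rintro rfl
      have := H.e₁
      rw [zero_sub, Valuation.map_neg, map_one] at this
      exact lt_irrefl _ this
    have h6 : y = y * e ^ r * e⁻¹ ^ r := by
      rw [mul_assoc, ← mul_pow, mul_inv_cancel₀ he0, one_pow, mul_one]
    rw [h6]
    exact W.mul_mem _ _ h5 (W.pow_mem hu r)
  · right
    refine setup_eq_of_le H.unif₂ (fun y hy => ?_) hπ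
    obtain ⟨r, hr⟩ := exists_mul_pow_mem H.unif₁ H.one_sub₁ y
    have h5 : y * (1 - e) ^ r ∈ W := hint _ hr (V₂.mul_mem _ _ hy (V₂.pow_mem he2 r))
    have he0 : (1 - e) ≠ 0 := by
      intro h0
      have h7 : e = 1 := (sub_eq_zero.1 h0).symm
      have := H.e₂
      rw [h7, map_one] at this
      exact lt_irrefl _ this
    have h6 : y = y * (1 - e) ^ r * (1 - e)⁻¹ ^ r := by
      rw [mul_assoc, ← mul_pow, mul_inv_cancel₀ he0, one_pow, mul_one]
    rw [h6]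
    exact W.mul_mem _ _ h5 (W.pow_mem hu r)

/-- transport of the density statement along an endomorphism. -/
theorem setup_dense_transport {K F₀ F : Type*} [Field K] [Field F₀] [Field F] [Algebra K F₀]
    [Algebra K F] (V V' : ValuationSubring F) (w : F →ₐ[K] F) (al be : F₀ →ₐ[K] F)
    (hV : V.comap w.toRingHom = V') (hw : ∀ f, w (be f) = al f)
    (hd : ∀ y ∈ V, ∃ r : F₀, V.valuation (al r - y) < 1) :
    ∀ y ∈ V', ∃ r : F₀, V'.valuation (be r - y) < 1 := by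
  subst hV
  intro y hy
  have hy' : w y ∈ V := hy
  obtain ⟨r, hr⟩ := hd (w y) hy'
  refine ⟨r, ?_⟩
  have h1 : al r - w y = w (be r - y) := by
    rw [map_sub, hw]
  rw [h1] at hr
  rw [change_val_lt_one_iff] at hr ⊢
  rw [ValuationSubring.mem_comap]
  have h3 : w.toRingHom (be r - y)⁻¹ = (w (be r - y))⁻¹ := map_inv₀ w.toRingHom _
  have h4 : w (be r - y) = 0 ↔ be r - y = 0 := map_eq_zero w.toRingHom
  rw [h3, ← h4]
  exact hr

end Abstract

end Fermat.Agent.BAD.LevelQ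

namespace Fermat.Agent.S36.Mod.Setup

open ModularCurve Fermat.Agent.S24 Fermat.Agent.S18 IntermediateField

variable {K K' : Type*} [Field K] [Field K'] [Algebra ℚ K] [Algebra ℚ K'] [Algebra K Kbar]
  [Algebra K' Kbar] (S : Setup K K')

/-- the Kronecker element `j(q z) - j(z) ^ q`. -/
theorem exists_kron1 : ∃ a : S.F1, S.V1oo.valuation a < 1 ∧ S.V1oo.valuation (S.w1 a) = 1 := by
  have h1 : S.q * 1 ∣ S.N0 * S.q := by rw [Nat.mul_one]; exact Dvd.intro_left _ rfl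
  have hal : S.al0 (JK K S.N0 1 (one_dvd _)) = JK K (S.N0 * S.q) 1 (one_dvd _) :=
    al_JK S.N0 S.q 1 _
  have hbe : S.be0 (JK K S.N0 1 (one_dvd _)) = JK K (S.N0 * S.q) (S.q * 1) h1 :=
    be_JK S.N0 S.q 1 _ h1
  obtain ⟨X, hX⟩ : ∃ X : S.F1, X = JK K (S.N0 * S.q) 1 (one_dvd _) := ⟨_, rfl⟩
  obtain ⟨Y, hY⟩ : ∃ Y : S.F1, Y = JK K (S.N0 * S.q) (S.q * 1) h1 := ⟨_, rfl⟩
  have hwX : S.w1 X = Y := by rw [hX, hY, ← hal, w1_al0, hbe]
  have hwY : S.w1 Y = X := by rw [hX, hY, ← hbe, w1_be0, hal]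
  have hXm : X ∈ S.V1oo := hX ▸ S.JK_mem_V1oo 1 _
  have hYm : Y ∈ S.V1oo := hY ▸ S.JK_mem_V1oo (S.q * 1) h1
  have hrX : S.r1oo ⟨X, hXm⟩ = S.jb 1 := by
    subst hX
    exact S.r1oo_JK 1 _
  have hrY : S.r1oo ⟨Y, hYm⟩ = S.jb (S.q * 1) := by
    subst hY
    exact S.r1oo_JK (S.q * 1) h1
  refine ⟨Y - X ^ S.q, S.insep_cong S.e1oo (by rw [hY]; rfl) (by rw [hX]; rfl), ?_⟩
  rw [map_sub, map_pow, hwX, hwY]
  have hm : X - Y ^ S.q ∈ S.V1oo := S.V1oo.sub_mem hXm (S.V1oo.pow_mem hYm _)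
  have hr : S.r1oo ⟨X - Y ^ S.q, hm⟩ ≠ 0 := by
    have e : (⟨X - Y ^ S.q, hm⟩ : S.V1oo) = ⟨X, hXm⟩ - ⟨Y, hYm⟩ ^ S.q := rfl
    rw [e, map_sub, map_pow, hrX, hrY]
    intro h0
    have h2 := congrArg HahnSeries.order (sub_eq_zero.1 h0)
    rw [HahnSeries.order_pow, order_jb, order_jb] at h2
    have h3 : (2 : ℤ) ≤ S.q := by exact_mod_cast S.hq.two_le
    push_cast at h2
    rw [nsmul_eq_mul] at h2
    nlinarith
  by_contra hne
  have hlt : S.V1oo.valuation (X - Y ^ S.q) < 1 :=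
    lt_of_le_of_ne ((S.V1oo.valuation_le_one_iff _).2 hm) hne
  exact hr ((S.r1oo_eq_zero_iff ⟨_, hm⟩).2 ((ValuationSubring.mem_nonunits_iff _).2 hlt))

theorem V10_eq_comap_ww : S.V10 = S.V1oo.comap
    (((Fermat.Agent.BAD.LevelQ.Mod.ww K S.coprime : S.F1 ≃ₐ[K] S.F1) : S.F1 ≃+* S.F1) :
      S.F1 →+* S.F1) := by
  rw [← S.V1oo_comap_w1]
  rfl

theorem twoHyp1_aux (a : S.F1) (ha₁ : S.V1oo.valuation a < 1)
    (ha₂ : S.V1oo.valuation (S.w1 a) = 1) :
    letI := (heckeAlphaBar K S.N0 S.q).toRingHom.toAlgebra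
    Fermat.Agent.BAD.LevelQ.TwoHyp S.V0 (algebraMap K S.F0 ((S.q : ℕ) : K))
      S.V1oo (S.V1oo.comap
      (((Fermat.Agent.BAD.LevelQ.Mod.ww K S.coprime : S.F1 ≃ₐ[K] S.F1) : S.F1 ≃+* S.F1) :
        S.F1 →+* S.F1)) S.q
      ((Fermat.Agent.BAD.LevelQ.Mod.ww K S.coprime) a /
        (a + (Fermat.Agent.BAD.LevelQ.Mod.ww K S.coprime) a))
      (heckeBetaBar K S.N0 S.q (jK K S.N0)) :=
  Fermat.Agent.BAD.LevelQ.twoHyp_FK S.isUnif_B S.hq S.hqN S.isGauss_V0 S.isGauss_V1oo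
    (Fermat.Agent.BAD.LevelQ.Mod.ww K S.coprime) S.w1_al0 S.w1_be0 S.w1_w1 ha₁ ha₂

/-- the hypotheses `TwoHyp` for `(V1oo, V10)` over `V0`. -/
theorem exists_twoHyp1 :
    letI := (heckeAlphaBar K S.N0 S.q).toRingHom.toAlgebra
    ∃ e θ : S.F1, Fermat.Agent.BAD.LevelQ.TwoHyp S.V0 (algebraMap K S.F0 ((S.q : ℕ) : K))
      S.V1oo S.V10 S.q e θ := by
  obtain ⟨a, ha₁, ha₂⟩ := S.exists_kron1
  have h := S.twoHyp1_aux a ha₁ ha₂
  rw [← S.V10_eq_comap_ww] at h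
  exact ⟨_, _, h⟩

theorem complete1 (W : ValuationSubring S.F1) (hW : W.comap S.al0.toRingHom = S.V0) :
    W = S.V1oo ∨ W = S.V10 := by
  letI := (heckeAlphaBar K S.N0 S.q).toRingHom.toAlgebra
  obtain ⟨e, θ, H⟩ := S.exists_twoHyp1
  exact H.eq_or_eq_of_comap W hW

theorem dense1_oo : ∀ y ∈ S.V1oo, ∃ r : S.F0, S.V1oo.valuation (S.al0 r - y) < 1 := by
  intro y hy
  letI := (heckeAlphaBar K S.N0 S.q).toRingHom.toAlgebra
  obtain ⟨e, θ, H⟩ := S.exists_twoHyp1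
  obtain ⟨r, -, hr⟩ := H.dense₁ y hy
  refine ⟨r, ?_⟩
  rw [Valuation.map_sub_swap]
  exact hr

theorem dense1_0 : ∀ y ∈ S.V10, ∃ r : S.F0, S.V10.valuation (S.be0 r - y) < 1 :=
  Fermat.Agent.BAD.LevelQ.setup_dense_transport S.V1oo S.V10 S.w1 S.al0 S.be0 S.V1oo_comap_w1
    S.w1_be0 S.dense1_oo

end Fermat.Agent.S36.Mod.Setup
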