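/-
Project BAD, block LevelQ, sub-block LQ-MOD, section Setup, part 2 (helper7, shadow of task 2192):
block L0 (the good model of level `N0`) in the language of `S36/Mod/Setup.lean`.
-/
import Fermat.Agent.BAD.LevelQ.Mod.SetupGauss
import Fermat.Agent.BAD.LevelQ.Mod.Deg
import Fermat.Agent.BAD.LevelQ.Abs.Tower
import Fermat.Agent.S18.Export.IsChartBase

set_option autoImplicit false
set_option linter.style.haveILetI false

noncomputable section

namespace Fermat.Agent.S36.Mod.Setup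

open ModularCurve Fermat.Agent.S24 Fermat.Agent.S18 IntermediateField

section Aux

variable (K : Type*) [Field K] [Algebra ℚ K] [Algebra K Kbar] (N q : ℕ) [NeZero N] [NeZero q]

theorem l0_finite_alpha :
    letI := (heckeAlphaBar K N q).toRingHom.toAlgebra
    FiniteDimensional (FK K N) (FK K (N * q)) :=
  Fermat.Agent.BAD.LevelQ.Mod.finite_al (K := K) (M := N) (q := q)

theorem l0_finite_beta :
    letI := (heckeBetaBar K N q).toRingHom.toAlgebra
    FiniteDimensional (FK K N) (FK K (N * q)) := by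
  letI := (heckeBetaBar K N q).toRingHom.toAlgebra
  apply Module.finite_of_finrank_pos
  have h1 : Module.finrank (FK K N) (FK K (N * q)) =
      Fermat.Agent.S36.Norm.dg (heckeBetaBar Kbar N q).toRingHom := dg_betaK K N q
  rw [h1]
  have hfin := S37.HeckeInputs.beta_finite N q
  letI := (heckeBetaBar Kbar N q).toRingHom.toAlgebra
  have : Module.Finite (FN N) (FN (N * q)) := hfin
  exact Module.finrank_pos (R := FN N) (M := FN (N * q))

end Aux

variable {K K' : Type*} [Field K] [Field K'] [Algebra ℚ K] [Algebra ℚ K'] [Algebra K Kbar]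
  [Algebra K' Kbar] (S : Setup K K')

theorem l0_div_mem : ((S.q : ℕ) : K) / ((S.q : ℕ) : K) ∈ S.B := by
  have hq0 : ((S.q : ℕ) : K) ≠ 0 := by
    haveI : CharZero K := algebraRat.charZero K
    exact Nat.cast_ne_zero.2 S.hq.ne_zero
  rw [div_self hq0]
  exact S.B.one_mem

theorem l0_algebraMap_q : algebraMap K S.F0 ((S.q : ℕ) : K) = ((S.q : ℕ) : S.F0) :=
  map_natCast _ _

variable (D : BaseData S.N0 S.q)

theorem l0_isVert : IsVert S.B ((S.q : ℕ) : K) S.V0 K⟮D.xK K⟯ := by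
  haveI : Fact S.q.Prime := ⟨S.hq⟩
  exact S18.Export.isVert_base S.isUnif_B S.hqN S.l0_div_mem D S.isGauss_V0

theorem transc₀ : Transcendental K (D.xK K) := transcendental_xK D K

theorem unifw : IsUnif S.V0 ((S.q : ℕ) : S.F0) := by
  have h := S.isGauss_V0.unif
  rwa [S.l0_algebraMap_q] at h

theorem const₀ : ∀ a ∈ S.B, algebraMap K S.F0 a ∈ S.V0 :=
  S.isGauss_V0.const_mem

theorem x_unit₀ : S.V0.valuation (D.xK K) = 1 := by
  have h1 := (isCoord_base S.isUnif_B D S.isGauss_V0).mem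
  have h2 := (isCoord_base_inv S.isUnif_B D S.isGauss_V0).mem
  rw [← ValuationSubring.valuation_le_one_iff] at h1 h2
  rw [map_inv₀] at h2
  have hx0 : D.xK K ≠ 0 := by
    intro h
    exact (S.transc₀ D) (h ▸ isAlgebraic_zero)
  have h0 : S.V0.valuation (D.xK K) ≠ 0 := (map_ne_zero _).2 hx0
  exact le_antisymm h1 ((inv_le_one₀ (zero_lt_iff.2 h0)).1 h2)

theorem chart₁ : IsChart S.V0 ((S.q : ℕ) : S.F0) (chart S.B.toSubring (D.xK K)) := by
  haveI : Fact S.q.Prime := ⟨S.hq⟩
  have h := S18.Export.isChart_base S.isUnif_B S.hqN S.l0_div_mem D S.isGauss_V0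
  rwa [S.l0_algebraMap_q] at h

theorem chart₂ : IsChart S.V0 ((S.q : ℕ) : S.F0) (chart S.B.toSubring (D.xK K)⁻¹) := by
  haveI : Fact S.q.Prime := ⟨S.hq⟩
  have h := S18.Export.isChart_base_inv S.isUnif_B S.hqN S.l0_div_mem D S.isGauss_V0
  rwa [S.l0_algebraMap_q] at h

theorem finite_a : FiniteDimensional K⟮(S.al1.comp S.al0) (D.xK K)⟯ S.F2 := by
  have h0 : FiniteDimensional K⟮D.xK K⟯ S.F0 := (S.l0_isVert D).finite
  have h1 : FiniteDimensional K⟮S.al0 (D.xK K)⟯ S.F1 :=
    BAD.LevelQ.tow_finite S.al0 h0 (l0_finite_alpha K S.N0 S.q)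
  exact BAD.LevelQ.tow_finite S.al1 h1 (l0_finite_alpha K (S.N0 * S.q) S.q)

theorem finite_b : FiniteDimensional K⟮(S.be1.comp S.be0) (D.xK K)⟯ S.F2 := by
  have h0 : FiniteDimensional K⟮D.xK K⟯ S.F0 := (S.l0_isVert D).finite
  have h1 : FiniteDimensional K⟮S.be0 (D.xK K)⟯ S.F1 :=
    BAD.LevelQ.tow_finite S.be0 h0 (l0_finite_beta K S.N0 S.q)
  exact BAD.LevelQ.tow_finite S.be1 h1 (l0_finite_beta K (S.N0 * S.q) S.q)

end Fermat.Agent.S36.Mod.Setup
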